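import Fermat.Agent.S26.Curve.Spec.TV

/-! # S26 / M5-BP : the local rings `B_P` of the arithmetic surface `C × Spec 𝒪`: definitions and the two maps.

For a place `P` of `𝕃̄/κ` let `R_P = O_P ∩ FC` (`= FC` or `O_{C,c}`), `T_P = 𝒪 ⊗[K] R_P = TV v (RP P)` and
`B_P = (T_P)_{𝔫_P}`, `𝔫_P` = kernel of `T_P → κ(P)`.   General facts on `TV v V`: `Curve/Spec/TV.lean`.

* `TP.toCFbar_mem`: induction on tensors; `κ ⊆ O_P` (`P.algebraMap_mem'`), `R_P ⊆ O_P` by definition of `traceFC`.
* `exists_toCF`: `IsLocalization.lift` (nonzero elements of `T_P` go to units of the field `𝕃`), injective since `TV.toCF` is injective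
  (`IsLocalization.lift_injective_iff` or by hand).
* `exists_red`: `IsLocalization.lift` of `T_P → O_P` (elements outside `𝔫_P` go to units of the local ring `O_P`).  SURJECTIVE: by
  `exists_eq_constPlace_or_isNonconst P`, either `P = constPlace κ c`, `R_P = O_c` (`traceFC_constPlace`) and `exists_fraction_of_const`, or
  `R_P = ⊤` and `exists_fraction_of_isNonconst`: every `f ∈ O_P` is `a / b`, `a b ∈ κ ⊗ R_P`, `ord_P b = 0`; and `𝒪 ⊗ R_P → κ ⊗ R_P` is
  surjective (`residue` is).
* `isLocalHom_red`: `b = t / s`; `red b` unit ⇒ `t ∉ 𝔫_P` ⇒ `b` unit.  (Or `TwoDim.isUnit_of_isUnit_red`: a surjection of a local ring.) -/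

set_option autoImplicit false

universe u

namespace Fermat.Agent.S26

open AlgebraicCurve TensorProduct IsLocalRing

variable {K : Type u} [Field K] [IsAlgClosed K]
variable {Φ FC : Type u} [Field Φ] [Algebra K Φ] [Field FC] [Algebra K FC]

section BP

variable (v : Place K Φ) (P : Place v.ResidueField (CF K v.ResidueField FC))

/-- `𝒪 ⊗ R_P` -/
abbrev TP : Type u := TV v (RP P)

/-- `𝒪 ⊗ R_P → κ(C)` -/
noncomputable abbrev TP.toCFbar : TP v P →ₐ[K] CF K v.ResidueField FC := TV.toCFbar v (RP P)

/-- `𝒪 ⊗ R_P → Φ(C)` -/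
noncomputable abbrev TP.toCF : TP v P →ₐ[K] CF K Φ FC := TV.toCF v (RP P)

theorem TP.toCFbar_mem (t : TP v P) : TP.toCFbar v P t ∈ P.toValuationSubring := by
  induction t using TensorProduct.induction_on with
  | zero => rw [map_zero]; exact zero_mem _
  | tmul ω a =>
    rw [TV.toCFbar_tmul]
    exact mul_mem (P.algebraMap_mem' _) a.2
  | add x y hx hy => rw [map_add]; exact add_mem hx hy

/-- `𝔫_P` -/
noncomputable def nP : Ideal (TP v P) :=
  RingHom.ker ((residue P.toValuationSubring).comp
    ((TP.toCFbar v P).toRingHom.codRestrict P.toValuationSubring (TP.toCFbar_mem v P)))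

instance : (nP v P).IsPrime := RingHom.ker_isPrime _

/-- membership in `𝔫_P` (unfold; `residue_eq_zero_iff`, `Fermat.Agent.S24.FF` API for `ord`). -/
theorem mem_nP_iff (t : TP v P) : t ∈ nP v P ↔ TP.toCFbar v P t = 0 ∨ 0 < P.ord (TP.toCFbar v P t) := by
  have h1 : t ∈ nP v P ↔ residue P.toValuationSubring ⟨TP.toCFbar v P t, TP.toCFbar_mem v P t⟩ = 0 :=
    Iff.rfl
  rw [h1]
  by_cases h0 : TP.toCFbar v P t = 0
  · have : (⟨TP.toCFbar v P t, TP.toCFbar_mem v P t⟩ : P.toValuationSubring) = 0 := Subtype.ext h0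
    rw [this, map_zero]
    simp [h0]
  · have hne : (⟨TP.toCFbar v P t, TP.toCFbar_mem v P t⟩ : P.toValuationSubring) ≠ 0 :=
      fun h => h0 (congrArg Subtype.val h)
    rw [Fermat.Agent.S24.FF.DegOne.residue_eq_zero_iff P hne]
    simp [h0]

/-- `B_P`.  A `def`, NOT an `abbrev`: the only instances are the ones declared below (this avoids very slow unification problems between the
many instance paths on `Localization`).  Use the `IsLocalization.AtPrime (BP v P) (nP v P)` API. -/
def BP : Type u := Localization.AtPrime (nP v P)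

namespace BP

noncomputable instance : CommRing (BP v P) := inferInstanceAs (CommRing (Localization.AtPrime (nP v P)))

noncomputable instance : Algebra (TP v P) (BP v P) :=
  inferInstanceAs (Algebra (TP v P) (Localization.AtPrime (nP v P)))

instance : IsLocalization.AtPrime (BP v P) (nP v P) :=
  inferInstanceAs (IsLocalization.AtPrime (Localization.AtPrime (nP v P)) (nP v P))

noncomputable instance : Algebra K (BP v P) := inferInstanceAs (Algebra K (Localization.AtPrime (nP v P)))

instance : IsScalarTower K (TP v P) (BP v P) :=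
  inferInstanceAs (IsScalarTower K (TP v P) (Localization.AtPrime (nP v P)))

instance : IsLocalRing (BP v P) := IsLocalization.AtPrime.isLocalRing (BP v P) (nP v P)

noncomputable def fromO : v.toValuationSubring →ₐ[K] BP v P :=
  (IsScalarTower.toAlgHom K (TP v P) (BP v P)).comp Algebra.TensorProduct.includeLeft

noncomputable def fromR : (RP P).toValuationSubring →ₐ[K] BP v P :=
  (IsScalarTower.toAlgHom K (TP v P) (BP v P)).comp Algebra.TensorProduct.includeRight

theorem exists_toCF : ∃ φ : BP v P →ₐ[K] CF K Φ FC, Function.Injective φ ∧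
    ∀ t : TP v P, φ (algebraMap (TP v P) (BP v P) t) = TP.toCF v P t := by
  have hne : ∀ s : (nP v P).primeCompl, (s : TP v P) ≠ 0 := fun s h0 => s.2 (h0 ▸ zero_mem _)
  have hu : ∀ s : (nP v P).primeCompl, IsUnit ((TP.toCF v P).toRingHom s) := fun s =>
    isUnit_iff_ne_zero.mpr fun h => hne s (TV.toCF_injective v (RP P) (h.trans (map_zero _).symm))
  let φ₀ : BP v P →+* CF K Φ FC := IsLocalization.lift (M := (nP v P).primeCompl) hu
  have hφ₀ : ∀ t, φ₀ (algebraMap (TP v P) (BP v P) t) = TP.toCF v P t := fun t =>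
    IsLocalization.lift_eq hu t
  refine ⟨{ φ₀ with commutes' := fun c => ?_ }, ?_, hφ₀⟩
  · show φ₀ (algebraMap K (BP v P) c) = _
    rw [IsScalarTower.algebraMap_apply K (TP v P) (BP v P), hφ₀, AlgHom.commutes]
  · show Function.Injective φ₀
    rw [injective_iff_map_eq_zero]
    intro b hb
    obtain ⟨⟨t, s⟩, hts⟩ := IsLocalization.surj (nP v P).primeCompl b
    have h1 := congrArg φ₀ hts
    rw [map_mul, hb, zero_mul, hφ₀] at h1
    have h2 : t = 0 := TV.toCF_injective v (RP P) (h1.symm.trans (map_zero _).symm)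
    rw [h2, map_zero] at hts
    exact (IsLocalization.map_units (BP v P) s).mul_left_eq_zero.mp hts

/-- `B_P ⊆ Φ(C)` -/
noncomputable def toCF : BP v P →ₐ[K] CF K Φ FC := (exists_toCF v P).choose

theorem toCF_injective : Function.Injective (toCF v P) := (exists_toCF v P).choose_spec.1

theorem toCF_algebraMap (t : TP v P) : toCF v P (algebraMap (TP v P) (BP v P) t) = TP.toCF v P t :=
  (exists_toCF v P).choose_spec.2 t

theorem toCF_fromO (ω : v.toValuationSubring) :
    toCF v P (fromO v P ω) = algebraMap Φ (CF K Φ FC) ω := by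
  have h : fromO v P ω = algebraMap (TP v P) (BP v P) (ω ⊗ₜ 1) := rfl
  rw [h, toCF_algebraMap, TV.toCF_tmul]
  simp

theorem toCF_fromR (a : (RP P).toValuationSubring) : toCF v P (fromR v P a) = CF.inr K Φ FC a := by
  have h : fromR v P a = algebraMap (TP v P) (BP v P) (1 ⊗ₜ a) := rfl
  rw [h, toCF_algebraMap, TV.toCF_tmul]
  simp

/-- every element of `B_P` is `t / s` with `s ∉ 𝔫_P` (`IsLocalization.mk'_surjective`/`IsLocalization.surj`). -/
theorem exists_mul_eq (b : BP v P) : ∃ t s : TP v P, s ∉ nP v P ∧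
    b * algebraMap (TP v P) (BP v P) s = algebraMap (TP v P) (BP v P) t := by
  obtain ⟨⟨t, s⟩, hts⟩ := IsLocalization.surj (nP v P).primeCompl b
  exact ⟨t, s, s.2, hts⟩

/-- the corestriction `T_P → O_P` -/
noncomputable def _root_.Fermat.Agent.S26.TP.toOP : TP v P →ₐ[K] (P.restrictConst K).toValuationSubring where
  toFun t := ⟨TP.toCFbar v P t, TP.toCFbar_mem v P t⟩
  map_one' := Subtype.ext (map_one _)
  map_mul' x y := Subtype.ext (map_mul _ x y)
  map_zero' := Subtype.ext (map_zero _)
  map_add' x y := Subtype.ext (map_add _ x y)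
  commutes' r := Subtype.ext ((TP.toCFbar v P).commutes r)

theorem _root_.Fermat.Agent.S26.TP.isUnit_toOP {s : TP v P} (hs : s ∉ nP v P) : IsUnit (TP.toOP v P s) := by
  rw [mem_nP_iff, not_or] at hs
  have h0 : P.ord (TP.toCFbar v P s) = 0 :=
    le_antisymm (not_lt.mp hs.2) (Fermat.Agent.S24.FF.ord_nonneg_of_mem P (TP.toCFbar_mem v P s))
  have hinv : (TP.toCFbar v P s)⁻¹ ∈ (P.restrictConst K).toValuationSubring :=
    Fermat.Agent.S24.FF.mem_of_ord_nonneg P (by rw [Place.ord_inv, h0]; simp)
  exact isUnit_iff_exists_inv.mpr ⟨⟨_, hinv⟩, Subtype.ext (mul_inv_cancel₀ hs.1)⟩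

/-- `O_P` is the localisation of the image of `T_P`. -/
theorem _root_.Fermat.Agent.S26.TP.exists_fraction_of_mem [FF1 K FC] (f : CF K v.ResidueField FC)
    (hf : f ∈ P.toValuationSubring) :
    ∃ t s : TP v P, s ∉ nP v P ∧ f * TP.toCFbar v P s = TP.toCFbar v P t := by
  have key : ∀ x y : CF K v.ResidueField FC, (∃ t : TP v P, TP.toCFbar v P t = x) →
      (∃ s : TP v P, TP.toCFbar v P s = y) → P.ord y = 0 → y ≠ 0 → f = x / y →
      ∃ t s : TP v P, s ∉ nP v P ∧ f * TP.toCFbar v P s = TP.toCFbar v P t := by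
    rintro x y ⟨t, rfl⟩ ⟨s, rfl⟩ h1 h2 h3
    refine ⟨t, s, ?_, ?_⟩
    · rw [mem_nP_iff, not_or]
      exact ⟨h2, by omega⟩
    · rw [h3, div_mul_cancel₀ _ h2]
  rcases exists_eq_constPlace_or_isNonconst P with ⟨c, rfl⟩ | hP
  · obtain ⟨a, b, hb, hb0, hfab⟩ := exists_fraction_of_const c f hf
    have lift : ∀ x : v.ResidueField ⊗[K] c.toValuationSubring,
        ∃ t : TP v (constPlace v.ResidueField c), TP.toCFbar v (constPlace v.ResidueField c) t =
          (CF.ofTensor K v.ResidueField FC).toRingHom.comp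
            (Algebra.TensorProduct.map (AlgHom.id K v.ResidueField)
              (IsScalarTower.toAlgHom K c.toValuationSubring FC)).toRingHom x := by
      intro x
      induction x using TensorProduct.induction_on with
      | zero => exact ⟨0, by simp⟩
      | tmul k a =>
        obtain ⟨ω, rfl⟩ := residue_surjective k
        have ha : (a : FC) ∈ traceFC (constPlace v.ResidueField c) := by
          rw [traceFC_constPlace]; exact a.2
        refine ⟨ω ⊗ₜ ⟨a, ha⟩, ?_⟩
        rw [TV.toCFbar_tmul]
        exact (CF.ofTensor_tmul _ _).symm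
      | add x y hx hy =>
        obtain ⟨t, ht⟩ := hx
        obtain ⟨s, hs⟩ := hy
        exact ⟨t + s, by rw [map_add, ht, hs, map_add]⟩
    exact key _ _ (lift a) (lift b) hb hb0 hfab
  · obtain ⟨a, b, hb, hb0, hfab⟩ := exists_fraction_of_isNonconst P hP f hf
    have lift : ∀ x : v.ResidueField ⊗[K] FC,
        ∃ t : TP v P, TP.toCFbar v P t = CF.ofTensor K v.ResidueField FC x := by
      intro x
      induction x using TensorProduct.induction_on with
      | zero => exact ⟨0, by simp⟩
      | tmul k a =>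
        obtain ⟨ω, rfl⟩ := residue_surjective k
        have ha : (a : FC) ∈ traceFC P := by
          rw [hP]; exact ValuationSubring.mem_top a
        refine ⟨ω ⊗ₜ ⟨a, ha⟩, ?_⟩
        rw [TV.toCFbar_tmul]
        exact (CF.ofTensor_tmul _ _).symm
      | add x y hx hy =>
        obtain ⟨t, ht⟩ := hx
        obtain ⟨s, hs⟩ := hy
        exact ⟨t + s, by rw [map_add, ht, hs, map_add]⟩
    exact key _ _ (lift a) (lift b) hb hb0 hfab

theorem exists_red [FF1 K FC] : ∃ φ : BP v P →ₐ[K] (P.restrictConst K).toValuationSubring, Function.Surjective φ ∧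
    ∀ t : TP v P, ((φ (algebraMap (TP v P) (BP v P) t) : (P.restrictConst K).toValuationSubring) :
      CF K v.ResidueField FC) = TP.toCFbar v P t := by
  have hu : ∀ y : (nP v P).primeCompl, IsUnit (TP.toOP v P y) := fun y => TP.isUnit_toOP v P y.2
  refine ⟨IsLocalization.liftAlgHom (M := (nP v P).primeCompl) (S := BP v P) hu, ?_, ?_⟩
  · rw [IsLocalization.coe_liftAlgHom, IsLocalization.lift_surjective_iff]
    intro x
    obtain ⟨t, s, hs, h⟩ := TP.exists_fraction_of_mem v P (x : CF K v.ResidueField FC) x.2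
    exact ⟨(t, ⟨s, hs⟩), Subtype.ext h⟩
  · intro t
    rw [IsLocalization.liftAlgHom_apply, IsLocalization.lift_eq]
    rfl

/-- `B_P → B_P/π = O_P` -/
noncomputable def red [FF1 K FC] : BP v P →ₐ[K] (P.restrictConst K).toValuationSubring := (exists_red v P).choose

theorem red_surjective [FF1 K FC] : Function.Surjective (red v P) := (exists_red v P).choose_spec.1

theorem red_algebraMap [FF1 K FC] (t : TP v P) :
    ((red v P (algebraMap (TP v P) (BP v P) t) : (P.restrictConst K).toValuationSubring) :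
      CF K v.ResidueField FC) = TP.toCFbar v P t := (exists_red v P).choose_spec.2 t

theorem isLocalHom_red [FF1 K FC] : IsLocalHom (red v P).toRingHom :=
  IsLocalHom.of_surjective (red v P).toRingHom (red_surjective v P)

end BP

end BP

end Fermat.Agent.S26
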