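import Fermat.Agent.S26.Curve.Spec.TV
import Fermat.Agent.S26.Curve.Gauss

/-! # S26 / M5-Gauss : the Gauss place of `Φ(C)` over a place `v` of `Φ/K`.   (glue to helper65's `Curve/Gauss.lean`)

`𝒪 = v.toValuationSubring`, `κ = v.ResidueField`, `𝕃 = CF K Φ FC`, `𝕃̄ = CF K κ FC`, `ϖ = piO v` a uniformiser of `𝒪`.

CONSTRUCTION of `GaussData`.  `A := 𝒪 ⊗[K] FC` is a domain, free over `𝒪`; `j : A → 𝕃` is injective, every element of `𝕃` is a fraction of
elements of `A`; `r : A → κ ⊗[K] FC ⊆ 𝕃̄` is surjective onto `κ ⊗ FC` with kernel `(ϖ ⊗ 1)`, so `ϖ ⊗ 1` is a prime element.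
`PrimeVal.valuationSubring` (`Alg/TwoDim.lean`) gives `O_G = A_(ϖ)`, `PrimeVal.resHom` gives `ρ`. -/

set_option autoImplicit false

universe u

namespace Fermat.Agent.S26

open AlgebraicCurve TensorProduct IsLocalRing

variable {K : Type u} [Field K] [IsAlgClosed K]
variable {Φ FC : Type u} [Field Φ] [Algebra K Φ] [Field FC] [Algebra K FC]

/-! ### the Gauss place -/

/-- The Gauss extension of `v` to `Φ(C)` with its reduction map onto `κ(C)`. -/
structure GaussData (v : Place K Φ) (FC : Type u) [Field FC] [Algebra K FC] where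
  G : Place K (CF K Φ FC)
  ρ : G.toValuationSubring →ₐ[K] CF K v.ResidueField FC
  ρ_surjective : Function.Surjective ρ
  ord_inl : ∀ ω : Φ, G.ord (algebraMap Φ (CF K Φ FC) ω) = v.ord ω
  inr_mem : ∀ a : FC, CF.inr K Φ FC a ∈ G.toValuationSubring
  ρ_inr : ∀ a : FC, ρ ⟨_, inr_mem a⟩ = CF.inr K v.ResidueField FC a
  ρ_inl : ∀ (ω : v.toValuationSubring) (h : algebraMap Φ (CF K Φ FC) ω ∈ G.toValuationSubring),
    ρ ⟨_, h⟩ = algebraMap v.ResidueField (CF K v.ResidueField FC) (residue _ ω)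

theorem nonempty_gaussData (v : Place K Φ) (FC : Type u) [Field FC] [Algebra K FC] :
    Nonempty (GaussData v FC) := by
  obtain ⟨G, ρ, h1, h2, h3, h4, h5⟩ := exists_gauss v FC
  exact ⟨⟨G, ρ, h1, h2, h3, h4, h5⟩⟩

noncomputable def gaussData (v : Place K Φ) (FC : Type u) [Field FC] [Algebra K FC] : GaussData v FC :=
  Classical.choice (nonempty_gaussData v FC)

/-- the Gauss place of `Φ(C)` over `v` -/
noncomputable abbrev gauss (v : Place K Φ) (FC : Type u) [Field FC] [Algebra K FC] : Place K (CF K Φ FC) :=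
  (gaussData v FC).G

/-- reduction `O_G → κ(C)` -/
noncomputable abbrev gaussRed (v : Place K Φ) (FC : Type u) [Field FC] [Algebra K FC] :
    (gauss v FC).toValuationSubring →ₐ[K] CF K v.ResidueField FC := (gaussData v FC).ρ

/-- the kernel of the reduction is the maximal ideal (a surjection of a local ring onto a field). -/
theorem gaussRed_eq_zero_iff (v : Place K Φ) (FC : Type u) [Field FC] [Algebra K FC]
    (f : (gauss v FC).toValuationSubring) :
    gaussRed v FC f = 0 ↔ f = 0 ∨ 0 < (gauss v FC).ord (f : CF K Φ FC) := by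
  constructor
  · intro h
    by_contra hcon
    push Not at hcon
    obtain ⟨h0, h1⟩ := hcon
    have hf0 : (f : CF K Φ FC) ≠ 0 := fun h => h0 (Subtype.ext h)
    have hord : (gauss v FC).ord (f : CF K Φ FC) = 0 :=
      le_antisymm h1 (Fermat.Agent.S24.FF.ord_nonneg_of_mem _ f.2)
    have hinv : (f : CF K Φ FC)⁻¹ ∈ (gauss v FC).toValuationSubring :=
      Fermat.Agent.S24.FF.mem_of_ord_nonneg _ (by rw [Place.ord_inv, hord]; simp)
    have h2 : f * ⟨_, hinv⟩ = 1 := Subtype.ext (mul_inv_cancel₀ hf0)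
    have h3 := congrArg (gaussRed v FC) h2
    rw [map_mul, h, zero_mul, map_one] at h3
    exact zero_ne_one h3
  · rintro (rfl | h)
    · exact map_zero _
    · exact Gauss.ρ_eq_zero_of_ord_pos v FC _ _ (gaussData v FC).ord_inl (gaussData v FC).ρ_inl f h

/-- `T = 𝒪 ⊗ V ⊆ O_G`  (induction on tensors: `ord_inl`, `inr_mem`). -/
theorem TV.toCF_mem_gauss (v : Place K Φ) (V : KVal K FC) (t : TV v V) :
    TV.toCF v V t ∈ (gauss v FC).toValuationSubring := by
  induction t using TensorProduct.induction_on with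
  | zero => simp
  | tmul ω a =>
    rw [TV.toCF_tmul]
    exact mul_mem (Gauss.inl_mem v FC _ (gaussData v FC).ord_inl ω) ((gaussData v FC).inr_mem a)
  | add x y hx hy => rw [map_add]; exact add_mem hx hy

/-- the Gauss reduction restricts to `toCFbar` on `T = 𝒪 ⊗ V`  (induction on tensors: `ρ_inl`, `ρ_inr`). -/
theorem TV.gaussRed_toCF (v : Place K Φ) (V : KVal K FC) (t : TV v V) :
    gaussRed v FC ⟨_, TV.toCF_mem_gauss v V t⟩ = TV.toCFbar v V t := by
  induction t using TensorProduct.induction_on with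
  | zero =>
    have : (⟨_, TV.toCF_mem_gauss v V 0⟩ : (gauss v FC).toValuationSubring) = 0 :=
      Subtype.ext (map_zero _)
    rw [this, map_zero, map_zero]
  | tmul ω a =>
    have : (⟨_, TV.toCF_mem_gauss v V (ω ⊗ₜ a)⟩ : (gauss v FC).toValuationSubring)
        = ⟨_, Gauss.inl_mem v FC _ (gaussData v FC).ord_inl ω⟩ * ⟨_, (gaussData v FC).inr_mem a⟩ :=
      Subtype.ext (TV.toCF_tmul v V ω a)
    rw [this, map_mul, (gaussData v FC).ρ_inl, (gaussData v FC).ρ_inr, TV.toCFbar_tmul]
  | add x y hx hy =>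
    have : (⟨_, TV.toCF_mem_gauss v V (x + y)⟩ : (gauss v FC).toValuationSubring)
        = ⟨_, TV.toCF_mem_gauss v V x⟩ + ⟨_, TV.toCF_mem_gauss v V y⟩ :=
      Subtype.ext (map_add _ _ _)
    rw [this, map_add, hx, hy, map_add]

/-- `O_G` is the localisation of `𝒪 ⊗ FC` at `(ϖ)` (requested by helper26 for `Top/PartV1`). -/
theorem exists_fraction_gauss (v : Place K Φ) (FC : Type u) [Field FC] [Algebra K FC] (f : CF K Φ FC)
    (hf : f ∈ (gauss v FC).toValuationSubring) :
    ∃ a b : v.toValuationSubring ⊗[K] FC,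
      let j := Algebra.TensorProduct.productMap
        ((CF.inl K Φ FC).comp (IsScalarTower.toAlgHom K v.toValuationSubring Φ)) (CF.inr K Φ FC)
      (gauss v FC).ord (j b) = 0 ∧ j b ≠ 0 ∧ f = j a / j b :=
  exists_fraction_of_gauss v FC _ (gaussRed v FC) (gaussData v FC).ord_inl (gaussData v FC).inr_mem
    (gaussData v FC).ρ_inr (gaussData v FC).ρ_inl f hf

/-- `FC ≃ ⊤` -/
def KVal.toTop (K F : Type u) [Field K] [Field F] [Algebra K F] :
    F →ₐ[K] (KVal.top K F).toValuationSubring where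
  toFun a := ⟨a, trivial⟩
  map_one' := rfl
  map_mul' _ _ := rfl
  map_zero' := rfl
  map_add' _ _ := rfl
  commutes' _ := rfl

/-- the same with `TV v ⊤` instead of `𝒪 ⊗ FC` (used in `Curve/Spec/Centre.lean`). -/
theorem exists_fraction_gauss_top (v : Place K Φ) (FC : Type u) [Field FC] [Algebra K FC] (f : CF K Φ FC)
    (hf : f ∈ (gauss v FC).toValuationSubring) :
    ∃ a s : TV v (KVal.top K FC), TV.toCFbar v _ s ≠ 0 ∧ f * TV.toCF v _ s = TV.toCF v _ a := by
  obtain ⟨a, b, hb, hb0, hf'⟩ := exists_fraction_of_gauss v FC _ (gaussRed v FC)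
    (gaussData v FC).ord_inl (gaussData v FC).inr_mem (gaussData v FC).ρ_inr (gaussData v FC).ρ_inl f hf
  let e : v.toValuationSubring ⊗[K] FC →ₐ[K] TV v (KVal.top K FC) :=
    Algebra.TensorProduct.map (AlgHom.id K _) (KVal.toTop K FC)
  have h1 : ∀ t, TV.toCF v _ (e t) = Gauss.j v FC t := by
    intro t
    induction t using TensorProduct.induction_on with
    | zero => simp
    | tmul ω a =>
      rw [Gauss.j_tmul]
      exact TV.toCF_tmul v _ ω (KVal.toTop K FC a)
    | add x y hx hy => rw [map_add, map_add, hx, hy, map_add]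
  have h2 : ∀ t, TV.toCFbar v _ (e t) = Gauss.r v FC t := by
    intro t
    induction t using TensorProduct.induction_on with
    | zero => simp
    | tmul ω a =>
      rw [Gauss.r_tmul]
      exact TV.toCFbar_tmul v _ ω (KVal.toTop K FC a)
    | add x y hx hy => rw [map_add, map_add, hx, hy, map_add]
  refine ⟨e a, e b, ?_, ?_⟩
  · rw [← TV.gaussRed_toCF]
    intro h
    rcases (gaussRed_eq_zero_iff v FC _).mp h with h | h
    · exact hb0 ((h1 b).symm.trans (congrArg Subtype.val h))
    · have h' : 0 < (gauss v FC).ord (TV.toCF v _ (e b)) := h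
      rw [h1, hb] at h'
      exact lt_irrefl _ h'
  · rw [h1, h1, hf', div_mul_cancel₀ _ hb0]

end Fermat.Agent.S26
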