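import Fermat.Agent.S26.Curve.Spec.BP
import Fermat.Agent.S26.Curve.Spec.Gauss
import Fermat.Agent.S26.Alg.TwoDim

/-! # S26 / M5-BPStruct : structure of `B_P`: noetherian local domain, `π` prime, `B_P/π = O_P`, factorial, `Frac B_P = Φ(C)`, `B_P ⊆ O_G`.

`π = piB v P` = image of the uniformiser `piO v` of `𝒪`.  Everything is deduced from the facts on `T_P = TV v (RP P)` of `Curve/Spec/TV.lean`
by writing `b = t / s`, `s ∉ 𝔫_P` (`BP.exists_mul_eq`).

* `isDomain_BP`: `BP.toCF_injective` into a field (`Function.Injective.isDomain`).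
* `isNoetherianRing_BP`: `isNoetherianRing_TV` + `IsLocalization.isNoetherianRing`.
* `red_eq_zero_iff`: `b = t / s`; `red b = 0 ↔ TV.toCFbar t = 0 ↔ ϖ ⊗ 1 ∣ t` (`TV.toCFbar_eq_zero_iff`); `s` is a unit of `B_P`.
* `exists_fraction`: `TV.exists_fraction`.
* `exists_mul_pow`: `ω = unit * ϖ ^ n`, `n ∈ ℤ` (i.e. `ω * ϖ ^ n ∈ 𝒪` for `n ≥ - ord ω`: `mem_of_ord_nonneg`).
* `prime_piB`, `exists_eq_span`, `ufd`: `TwoDim.*` (`Alg/TwoDim.lean`) with `A := (P.restrictConst K).toValuationSubring` (a DVR: see `FF/DVR.lean`);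
  `prime_piB`: `B_P/π ≃ O_P` is a domain (`red_eq_zero_iff`, `piB_ne_zero`, not a unit).
* `toCF_mem_gauss`, `gaussRed_toCF`: `TV.toCF_mem_gauss`, `TV.gaussRed_toCF` for `t ∈ T_P`; for `s ∉ 𝔫_P` we have `TV.toCFbar s ≠ 0`, so
  `gaussRed (toCF s) ≠ 0`, so `toCF s` is a unit of `O_G` (`gaussRed_eq_zero_iff`). -/

set_option autoImplicit false

universe u

namespace Fermat.Agent.S26

open AlgebraicCurve TensorProduct IsLocalRing

variable {K : Type u} [Field K] [IsAlgClosed K]
variable {Φ FC : Type u} [Field Φ] [Algebra K Φ] [Field FC] [Algebra K FC]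

variable (v : Place K Φ) (P : Place v.ResidueField (CF K v.ResidueField FC))

namespace BP

instance isDomain_BP : IsDomain (BP v P) :=
  (toCF_injective v P).isDomain (toCF v P).toRingHom

instance isNoetherianRing_BP [FF1 K FC] : IsNoetherianRing (BP v P) :=
  IsLocalization.isNoetherianRing (nP v P).primeCompl (BP v P) inferInstance

/-- `π` -/
noncomputable def piB : BP v P := fromO v P (piO v)

theorem piB_eq_algebraMap : piB v P = algebraMap (TP v P) (BP v P) (TV.pi v (RP P)) := rfl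

theorem piO_coe_ne_zero : ((piO v : v.toValuationSubring) : Φ) ≠ 0 :=
  Fermat.Agent.S24.FF.ne_zero_of_ord_ne_zero v (by rw [ord_piO]; exact one_ne_zero)

theorem toCF_piB : toCF v P (piB v P) = algebraMap Φ (CF K Φ FC) (piO v) := toCF_fromO v P (piO v)

theorem toCF_piB_ne_zero : toCF v P (piB v P) ≠ 0 := by
  rw [toCF_piB]
  exact (map_ne_zero_iff _ (algebraMap Φ (CF K Φ FC)).injective).mpr (piO_coe_ne_zero v)

theorem piB_ne_zero : piB v P ≠ 0 := fun h => toCF_piB_ne_zero v P (by rw [h, map_zero])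

theorem isUnit_algebraMap {s : TP v P} (hs : s ∉ nP v P) : IsUnit (algebraMap (TP v P) (BP v P) s) :=
  IsLocalization.map_units (BP v P) (⟨s, hs⟩ : (nP v P).primeCompl)

theorem toCFbar_ne_zero {s : TP v P} (hs : s ∉ nP v P) : TP.toCFbar v P s ≠ 0 :=
  fun h => hs ((mem_nP_iff v P s).mpr (Or.inl h))

theorem red_eq_zero_iff [FF1 K FC] (b : BP v P) : red v P b = 0 ↔ piB v P ∣ b := by
  obtain ⟨t, s, hs, hb⟩ := exists_mul_eq v P b
  constructor
  · intro h
    have h1 : red v P (algebraMap (TP v P) (BP v P) t) = 0 := by rw [← hb, map_mul, h, zero_mul]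
    have h2 : TP.toCFbar v P t = 0 := by rw [← red_algebraMap, h1]; rfl
    obtain ⟨t', rfl⟩ := (TV.toCFbar_eq_zero_iff v (RP P) t).mp h2
    obtain ⟨u, hu⟩ := isUnit_algebraMap v P hs
    refine ⟨algebraMap (TP v P) (BP v P) t' * (u⁻¹ : (BP v P)ˣ), ?_⟩
    rw [← hu, map_mul, ← piB_eq_algebraMap] at hb
    rw [← mul_assoc, ← hb, mul_assoc, Units.mul_inv, mul_one]
  · rintro ⟨c, rfl⟩
    have h1 : red v P (piB v P) = 0 := by
      apply Subtype.ext
      rw [piB_eq_algebraMap, red_algebraMap]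
      exact (TV.toCFbar_eq_zero_iff v (RP P) _).mpr dvd_rfl
    rw [map_mul, h1, zero_mul]

theorem exists_fraction (f : CF K Φ FC) : ∃ a s : BP v P, s ≠ 0 ∧ f * toCF v P s = toCF v P a := by
  obtain ⟨a, s, hs, h⟩ := TV.exists_fraction v (RP P) f
  refine ⟨algebraMap _ _ a, algebraMap _ _ s, ?_, ?_⟩
  · intro h0
    apply hs
    apply TV.toCF_injective v (RP P)
    rw [map_zero, ← toCF_algebraMap, h0, map_zero]
  · rw [toCF_algebraMap, toCF_algebraMap]; exact h

theorem exists_mul_pow (ω : Φ) :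
    ∃ (n : ℕ) (b : BP v P), algebraMap Φ (CF K Φ FC) ω * toCF v P (piB v P) ^ n = toCF v P b := by
  by_cases hω : ω = 0
  · exact ⟨0, 0, by simp [hω]⟩
  have hmem : ω * ((piO v : v.toValuationSubring) : Φ) ^ (-v.ord ω).toNat ∈ v.toValuationSubring := by
    apply Fermat.Agent.S24.FF.mem_of_ord_nonneg
    rw [v.ord_mul hω (pow_ne_zero _ (piO_coe_ne_zero v)), Fermat.Agent.S24.FF.ord_pow, ord_piO]
    have := Int.self_le_toNat (-v.ord ω)
    omega
  refine ⟨(-v.ord ω).toNat, fromO v P ⟨_, hmem⟩, ?_⟩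
  rw [toCF_fromO, toCF_piB, map_mul, map_pow]

theorem prime_piB [FF1 K FC] : Prime (piB v P) := by
  refine ⟨piB_ne_zero v P, ?_, ?_⟩
  · intro hu
    have h1 : IsUnit (red v P (piB v P)) := hu.map (red v P)
    rw [(red_eq_zero_iff v P _).mpr dvd_rfl] at h1
    exact not_isUnit_zero h1
  · intro a b hab
    have h1 := (red_eq_zero_iff v P _).mpr hab
    rw [map_mul] at h1
    rcases mul_eq_zero.mp h1 with h | h
    · exact Or.inl ((red_eq_zero_iff v P _).mp h)
    · exact Or.inr ((red_eq_zero_iff v P _).mp h)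

theorem ker_red [FF1 K FC] : RingHom.ker (red v P).toRingHom = Ideal.span {piB v P} := by
  ext b
  rw [RingHom.mem_ker, Ideal.mem_span_singleton]
  exact red_eq_zero_iff v P b

theorem exists_eq_span [FF1 K FC] (𝔮 : Ideal (BP v P)) (h𝔮 : 𝔮.IsPrime) (h0 : 𝔮 ≠ ⊥) (hπ𝔮 : piB v P ∉ 𝔮) :
    ∃ h : BP v P, 𝔮 = Ideal.span {h} :=
  TwoDim.exists_eq_span_singleton (red v P).toRingHom (red_surjective v P) (piB v P) (ker_red v P)
    (prime_piB v P) 𝔮 hπ𝔮 h0

instance ufd [FF1 K FC] : UniqueFactorizationMonoid (BP v P) :=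
  TwoDim.uniqueFactorizationMonoid (red v P).toRingHom (red_surjective v P) (piB v P) (ker_red v P)
    (prime_piB v P)

theorem ord_gauss_toCF_eq_zero {s : TP v P} (hs : s ∉ nP v P) :
    (gauss v FC).ord (TP.toCF v P s) = 0 := by
  have h1 := toCFbar_ne_zero v P hs
  rw [← TV.gaussRed_toCF] at h1
  have h2 := mt (gaussRed_eq_zero_iff v FC _).mpr h1
  push Not at h2
  exact le_antisymm h2.2 (Fermat.Agent.S24.FF.ord_nonneg_of_mem _ (TV.toCF_mem_gauss v (RP P) s))

theorem toCF_ne_zero {s : TP v P} (hs : s ∉ nP v P) : TP.toCF v P s ≠ 0 := by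
  intro h
  have h0 : s = 0 := TV.toCF_injective v (RP P) (by rw [h, map_zero])
  exact hs (h0 ▸ zero_mem _)

theorem toCF_eq_mul_inv {b : BP v P} {t s : TP v P} (hs : s ∉ nP v P)
    (hb : b * algebraMap (TP v P) (BP v P) s = algebraMap (TP v P) (BP v P) t) :
    toCF v P b = TP.toCF v P t * (TP.toCF v P s)⁻¹ := by
  have h := congrArg (toCF v P) hb
  rw [map_mul, toCF_algebraMap, toCF_algebraMap] at h
  rw [← h, mul_assoc, mul_inv_cancel₀ (toCF_ne_zero v P hs), mul_one]

/-- `B_P ⊆ O_G` and the Gauss reduction restricts to `red`. -/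
theorem toCF_mem_gauss (b : BP v P) : toCF v P b ∈ (gauss v FC).toValuationSubring := by
  obtain ⟨t, s, hs, hb⟩ := exists_mul_eq v P b
  rw [toCF_eq_mul_inv v P hs hb]
  refine mul_mem (TV.toCF_mem_gauss v (RP P) t) (Fermat.Agent.S24.FF.mem_of_ord_nonneg _ ?_)
  rw [Place.ord_inv, ord_gauss_toCF_eq_zero v P hs]; simp

theorem gaussRed_toCF [FF1 K FC] (b : BP v P) :
    gaussRed v FC ⟨_, toCF_mem_gauss v P b⟩ = ((red v P b : (P.restrictConst K).toValuationSubring) :
      CF K v.ResidueField FC) := by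
  obtain ⟨t, s, hs, hb⟩ := exists_mul_eq v P b
  have h1 : (⟨_, toCF_mem_gauss v P b⟩ : (gauss v FC).toValuationSubring)
      * ⟨_, TV.toCF_mem_gauss v (RP P) s⟩ = ⟨_, TV.toCF_mem_gauss v (RP P) t⟩ := by
    apply Subtype.ext
    have h := congrArg (toCF v P) hb
    rw [map_mul, toCF_algebraMap, toCF_algebraMap] at h
    exact h
  have h2 := congrArg (gaussRed v FC) h1
  rw [map_mul, TV.gaussRed_toCF, TV.gaussRed_toCF] at h2
  have h3 := congrArg (fun x : (P.restrictConst K).toValuationSubring => (x : CF K v.ResidueField FC))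
    (congrArg (red v P) hb)
  simp only [map_mul] at h3
  have h4 : ((red v P b : (P.restrictConst K).toValuationSubring) : CF K v.ResidueField FC)
      * TP.toCFbar v P s = TP.toCFbar v P t := by
    rw [← red_algebraMap, ← red_algebraMap]; exact h3
  exact mul_right_cancel₀ (toCFbar_ne_zero v P hs) (h2.trans h4.symm)

theorem ord_gauss_toCF_eq_zero_iff [FF1 K FC] (b : BP v P) (hb : b ≠ 0) :
    (gauss v FC).ord (toCF v P b) = 0 ↔ ¬ piB v P ∣ b := by
  have h1 := gaussRed_eq_zero_iff v FC ⟨_, toCF_mem_gauss v P b⟩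
  rw [gaussRed_toCF] at h1
  have h2 : (((red v P b : (P.restrictConst K).toValuationSubring) : CF K v.ResidueField FC) = 0)
      ↔ piB v P ∣ b := by
    rw [← red_eq_zero_iff]
    exact ⟨fun h => Subtype.ext h, fun h => congrArg Subtype.val h⟩
  have h3 : (⟨_, toCF_mem_gauss v P b⟩ : (gauss v FC).toValuationSubring) ≠ 0 := by
    intro h
    exact hb (toCF_injective v P (by rw [map_zero]; exact congrArg Subtype.val h))
  have h4 := Fermat.Agent.S24.FF.ord_nonneg_of_mem _ (toCF_mem_gauss v P b)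
  rw [← h2, h1]
  constructor
  · intro h
    rintro (h' | h')
    · exact h3 h'
    · have : 0 < (gauss v FC).ord (toCF v P b) := h'
      omega
  · intro h
    by_contra hne
    exact h (Or.inr (lt_of_le_of_ne h4 (Ne.symm hne)))

end BP

end Fermat.Agent.S26
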