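import Fermat.Agent.S26.Curve.Spec.Gauss

/-! # S26 / M5-S3a : centre of a valuation ring `W` of `Φ(C)` dominating `𝒪` on the special fibre.

`W` a valuation ring of `𝕃 = Φ(C)` with `𝒪 ⊆ W`, `ϖ⁻¹ ∉ W`, contained in the ring of a place `Q` of `𝕃/Φ`.  `V = W ∩ FC`, `T = TV v V = 𝒪 ⊗ V`.

PROOF of `exists_centre`.
1. `toCF t ∈ W` for all `t : T` (induction on tensors).  `𝔪_T := {t | toCF t ∈ W.nonunits}` (`= {t | (toCF t)⁻¹ ∉ W}`) is a proper ideal of `T` containing
   `TV.pi v V` (comap of the maximal ideal of `W`).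
2. `A := (TV.toCFbar v V).toRingHom.range` (a `Subring 𝕃̄`), `I := Ideal.map rangeRestrict 𝔪_T`.  `I ≠ ⊤`: if `1 = toCFbar t`, `t ∈ 𝔪_T`, then `1 - t ∈ ker = (π) ⊆ 𝔪_T`
   (`TV.toCFbar_eq_zero_iff`), so `1 ∈ 𝔪_T`.   (`rangeRestrict` is surjective: `Ideal.mem_map_iff_of_surjective`.)
3. Chevalley: `Ideal.image_subset_nonunits_valuationSubring I hI` gives `W̄ : ValuationSubring 𝕃̄`, `A ≤ W̄`, `I ⊆ W̄.nonunits`.
4. `κ ⊆ W̄` (`algebraMap κ 𝕃̄ (res ω) = toCFbar (ω ⊗ 1)`, `residue` surjective).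
5. `W̄ ≠ ⊤`: it suffices to find `t ∈ 𝔪_T` with `toCFbar t ≠ 0`.
   * if `a ∉ V` for some `a : FC`: `t := 1 ⊗ a⁻¹` (`a⁻¹ ∈ V` since `V` is a valuation ring; `(inr a⁻¹)⁻¹ = inr a ∉ W`).
   * if `V = ⊤` (`subst`: `V = KVal.top K FC`) and `toCFbar t = 0` for all `t ∈ 𝔪_T`: then `O_G ≤ W`: by `exists_fraction_gauss_top`, `f * toCF s = toCF a` with
     `toCFbar s ≠ 0`, so `s ∉ 𝔪_T`, `toCF s` is a unit of `W`.  So `O_G ≤ W ≤ O_Q`, `gauss v FC = Q.restrictConst K` (`Fermat.Agent.S24.FF.eq_of_le`), but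
     `ord_G ϖ = ord_v ϖ = 1` (`GaussData.ord_inl`, `ord_piO`) and `ϖ⁻¹ ∈ Φ ⊆ O_Q`.
6. `exists_place_of_valuationSubring` (`FF/DVR.lean`, instance `ff1_CF`) gives `P` with `O_P = W̄`.
7. `RP P = V`: `a ∈ V ⇒ inr a = toCFbar (1 ⊗ a) ∈ W̄`.  `a ∉ V ⇒ 1 ⊗ a⁻¹ ∈ 𝔪_T ⇒ inr a⁻¹ ∈ W̄.nonunits ⇒ inr a ∉ W̄`. -/

set_option autoImplicit false

universe u

namespace Fermat.Agent.S26

open AlgebraicCurve TensorProduct IsLocalRing

variable {K : Type u} [Field K] [IsAlgClosed K]
variable {Φ FC : Type u} [Field Φ] [Algebra K Φ] [Field FC] [Algebra K FC] [FF1 K FC]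

namespace CentreA

omit [IsAlgClosed K] [FF1 K FC] in
/-- `KVal` is determined by its valuation ring. -/
theorem kval_ext {V V' : KVal K FC} (h : V.toValuationSubring = V'.toValuationSubring) : V = V' := by
  cases V; cases V'; cases h; rfl

omit [IsAlgClosed K] [FF1 K FC] in
theorem ord_pos_of_inv_notMem {Ω 𝕃 : Type u} [Field Ω] [Field 𝕃] [Algebra Ω 𝕃] (P : Place Ω 𝕃) (x : 𝕃)
    (h : x⁻¹ ∉ P.toValuationSubring) : 0 < P.ord x := by
  by_contra hcon
  exact h (Fermat.Agent.S24.FF.mem_of_ord_nonneg P (by rw [Place.ord_inv]; omega))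

section

variable (v : Place K Φ) (W : ValuationSubring (CF K Φ FC)) (V : KVal K FC)

omit [FF1 K FC] in
/-- step 1 -/
theorem toCF_mem (hWO : ∀ ω : v.toValuationSubring, algebraMap Φ (CF K Φ FC) ω ∈ W)
    (hV : ∀ a : FC, a ∈ V.toValuationSubring ↔ CF.inr K Φ FC a ∈ W) (t : TV v V) :
    TV.toCF v V t ∈ W := by
  induction t using TensorProduct.induction_on with
  | zero => rw [map_zero]; exact W.zero_mem
  | tmul ω a =>
    rw [TV.toCF_tmul]
    exact W.mul_mem _ _ (hWO ω) ((hV _).1 a.2)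
  | add x y hx hy => rw [map_add]; exact W.add_mem _ _ hx hy

/-- the ideal `𝔪_T` of elements of `T` which are non units in `W`. -/
noncomputable def mT (hT : ∀ t : TV v V, TV.toCF v V t ∈ W) : Ideal (TV v V) :=
  (IsLocalRing.maximalIdeal W).comap ((TV.toCF v V).toRingHom.codRestrict W.toSubring hT)

omit [FF1 K FC] in
theorem mem_mT_iff (hT : ∀ t : TV v V, TV.toCF v V t ∈ W) (t : TV v V) :
    t ∈ mT v W V hT ↔ TV.toCF v V t ∈ W.nonunits := by
  rw [mT, Ideal.mem_comap, ← ValuationSubring.coe_mem_nonunits_iff]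
  rfl

omit [FF1 K FC] in
theorem one_notMem_mT (hT : ∀ t : TV v V, TV.toCF v V t ∈ W) : (1 : TV v V) ∉ mT v W V hT := by
  rw [mem_mT_iff, map_one, ValuationSubring.mem_nonunits_iff, map_one]
  exact lt_irrefl _

omit [FF1 K FC] in
theorem pi_mem_mT (hT : ∀ t : TV v V, TV.toCF v V t ∈ W)
    (hWπ : (algebraMap Φ (CF K Φ FC) (piO v))⁻¹ ∉ W) : TV.pi v V ∈ mT v W V hT := by
  rw [mem_mT_iff, ValuationSubring.mem_nonunits_iff_or]
  right
  have h : TV.toCF v V (TV.pi v V) = algebraMap Φ (CF K Φ FC) (piO v) := by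
    rw [TV.pi, TV.toCF_tmul]
    simp
  rwa [h]

omit [FF1 K FC] in
/-- for `a ∉ V` the element `1 ⊗ a⁻¹` of `T`. -/
theorem exists_inv_tmul (hT : ∀ t : TV v V, TV.toCF v V t ∈ W)
    (hV : ∀ a : FC, a ∈ V.toValuationSubring ↔ CF.inr K Φ FC a ∈ W) (a : FC)
    (ha : a ∉ V.toValuationSubring) :
    ∃ t ∈ mT v W V hT, TV.toCFbar v V t = (CF.inr K v.ResidueField FC a)⁻¹ ∧
      CF.inr K v.ResidueField FC a ≠ 0 := by
  have ha0 : a ≠ 0 := fun h => ha (h ▸ V.toValuationSubring.zero_mem)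
  have hai : a⁻¹ ∈ V.toValuationSubring := (V.toValuationSubring.mem_or_inv_mem a).resolve_left ha
  refine ⟨1 ⊗ₜ ⟨a⁻¹, hai⟩, ?_, ?_, ?_⟩
  · rw [mem_mT_iff, ValuationSubring.mem_nonunits_iff_or]
    right
    rw [TV.toCF_tmul]
    simp only [OneMemClass.coe_one, map_one, one_mul, map_inv₀, inv_inv]
    exact fun h => ha ((hV a).2 h)
  · rw [TV.toCFbar_tmul]
    simp
  · simpa using ha0

end

end CentreA

set_option maxHeartbeats 1600000 in
open CentreA in
theorem exists_centre (v : Place K Φ) (W : ValuationSubring (CF K Φ FC))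
    (hWO : ∀ ω : v.toValuationSubring, algebraMap Φ (CF K Φ FC) ω ∈ W)
    (hWπ : (algebraMap Φ (CF K Φ FC) (piO v))⁻¹ ∉ W)
    (Q : Place Φ (CF K Φ FC)) (hWQ : W ≤ Q.toValuationSubring)
    (V : KVal K FC) (hV : ∀ a : FC, a ∈ V.toValuationSubring ↔ CF.inr K Φ FC a ∈ W) :
    ∃ P : Place v.ResidueField (CF K v.ResidueField FC), RP P = V ∧
      (∀ t : TV v V, TV.toCF v V t ∈ W) ∧
      ∀ s : TV v V, (TV.toCF v V s)⁻¹ ∉ W → (TV.toCFbar v V s = 0 ∨ 0 < P.ord (TV.toCFbar v V s)) := by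
  have hT := toCF_mem v W V hWO hV
  set m := mT v W V hT with hm
  -- step 2
  set A : Subring (CF K v.ResidueField FC) := (TV.toCFbar v V).toRingHom.range with hA
  set I : Ideal A := Ideal.map (TV.toCFbar v V).toRingHom.rangeRestrict m with hI
  have hsurj : Function.Surjective (TV.toCFbar v V).toRingHom.rangeRestrict :=
    RingHom.rangeRestrict_surjective _
  have hItop : I ≠ ⊤ := by
    intro h
    have h1 : (1 : A) ∈ I := h ▸ Submodule.mem_top
    obtain ⟨t, ht, ht1⟩ := (Ideal.mem_map_iff_of_surjective _ hsurj).1 h1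
    have ht2 : TV.toCFbar v V t = 1 := congrArg Subtype.val ht1
    have h3 : TV.toCFbar v V (1 - t) = 0 := by rw [map_sub, map_one, ht2, sub_self]
    have h4 : (1 - t) ∈ m := Ideal.mem_of_dvd _ ((TV.toCFbar_eq_zero_iff v V _).1 h3)
      (pi_mem_mT v W V hT hWπ)
    have h5 : (1 : TV v V) ∈ m := by
      have := m.add_mem h4 ht
      rwa [sub_add_cancel] at this
    exact one_notMem_mT v W V hT h5
  -- step 3
  obtain ⟨Wb, hAW, hIW⟩ : ∃ B : ValuationSubring (CF K v.ResidueField FC),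
      A ≤ B.toSubring ∧ A.subtype '' I ⊆ B.nonunits :=
    Ideal.image_subset_nonunits_valuationSubring I hItop
  have hbar_mem : ∀ t : TV v V, TV.toCFbar v V t ∈ Wb := fun t => hAW ⟨t, rfl⟩
  have hbar_non : ∀ t ∈ m, TV.toCFbar v V t ∈ Wb.nonunits := fun t ht =>
    hIW ⟨(TV.toCFbar v V).toRingHom.rangeRestrict t, Ideal.mem_map_of_mem _ ht, rfl⟩
  -- step 4
  have hκ : ∀ a : v.ResidueField, algebraMap v.ResidueField (CF K v.ResidueField FC) a ∈ Wb := by
    intro a
    obtain ⟨ω, rfl⟩ := IsLocalRing.residue_surjective a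
    have h := hbar_mem (ω ⊗ₜ 1)
    rw [TV.toCFbar_tmul] at h
    simpa using h
  -- step 5
  have hex : ∃ t ∈ m, TV.toCFbar v V t ≠ 0 := by
    by_cases hVtop : ∀ a : FC, a ∈ V.toValuationSubring
    · by_contra hcon
      have hcon' : ∀ t ∈ m, TV.toCFbar v V t = 0 := by
        intro t ht
        by_contra h
        exact hcon ⟨t, ht, h⟩
      have hVeq : V = KVal.top K FC :=
        kval_ext (SetLike.ext fun a => ⟨fun _ => trivial, fun _ => hVtop a⟩)
      subst hVeq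
      have hGW : (gauss v FC).toValuationSubring ≤ W := by
        intro f hf
        obtain ⟨a, s, hs, hfs⟩ := exists_fraction_gauss_top v FC f hf
        have hsm : s ∉ m := fun h => hs (hcon' s h)
        rw [hm, mem_mT_iff, ValuationSubring.mem_nonunits_iff_or, not_or, not_not] at hsm
        have hf' : f = TV.toCF v _ a * (TV.toCF v _ s)⁻¹ := by
          rw [← hfs, mul_assoc, mul_inv_cancel₀ hsm.1, mul_one]
        rw [hf']
        exact W.mul_mem _ _ (hT a) hsm.2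
      have hGQ : gauss v FC = Q.restrictConst K :=
        Fermat.Agent.S24.FF.eq_of_le (hGW.trans hWQ)
      have h1 : algebraMap Φ (CF K Φ FC) ((piO v : Φ)⁻¹) ∈ (gauss v FC).toValuationSubring := by
        rw [hGQ]
        exact Q.algebraMap_mem' _
      have h2 := Fermat.Agent.S24.FF.ord_nonneg_of_mem _ h1
      rw [(gaussData v FC).ord_inl, Place.ord_inv, ord_piO] at h2
      omega
    · push Not at hVtop
      obtain ⟨a, ha⟩ := hVtop
      obtain ⟨t, ht, ht1, ht2⟩ := exists_inv_tmul v W V hT hV a ha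
      exact ⟨t, ht, by rw [ht1]; exact inv_ne_zero ht2⟩
  have hWbtop : Wb ≠ ⊤ := by
    rintro rfl
    obtain ⟨t, ht, ht0⟩ := hex
    rcases (ValuationSubring.mem_nonunits_iff_or _).1 (hbar_non t ht) with h | h
    · exact ht0 h
    · exact h trivial
  -- step 6
  obtain ⟨P, hP⟩ : ∃ P : Place v.ResidueField (CF K v.ResidueField FC),
      P.toValuationSubring = Wb :=
    exists_place_of_valuationSubring (Ω := v.ResidueField) Wb hκ hWbtop
  refine ⟨P, ?_, hT, ?_⟩
  · -- step 7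
    refine kval_ext (SetLike.ext fun a => ?_)
    show CF.inr K v.ResidueField FC a ∈ P.toValuationSubring ↔ _
    rw [hP]
    constructor
    · intro h
      by_contra ha
      obtain ⟨t, ht, ht1, ht2⟩ := exists_inv_tmul v W V hT hV a ha
      have h3 := hbar_non t ht
      rw [ht1, ValuationSubring.mem_nonunits_iff_or, inv_inv] at h3
      rcases h3 with h3 | h3
      · exact inv_ne_zero ht2 h3
      · exact h3 h
    · intro ha
      have h := hbar_mem (1 ⊗ₜ ⟨a, ha⟩)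
      rw [TV.toCFbar_tmul] at h
      simpa using h
  · intro s hs
    have hsm : s ∈ m := by
      rw [hm, mem_mT_iff, ValuationSubring.mem_nonunits_iff_or]
      exact Or.inr hs
    have hnon := hbar_non s hsm
    generalize TV.toCFbar v V s = x at hnon ⊢
    rcases (ValuationSubring.mem_nonunits_iff_or _).1 hnon with h | h
    · exact Or.inl h
    · exact Or.inr (ord_pos_of_inv_notMem P x (fun h2 => h (hP.le h2)))

end Fermat.Agent.S26
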