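import Fermat.Agent.S26.Curve.Spec.Imult
import Fermat.Agent.S26.Curve.Spec.CentreA

/-! # S26 / M5-S3b : the centre criterion (S3).

* `exists_compVal`: the composite `W = {f ∈ O_Q | f(Q) ∈ Y}` is a valuation ring: subring: clear.  `f ∈ W ∨ f⁻¹ ∈ W`: if `f ∉ O_Q` then `f⁻¹ ∈ 𝔪_Q`, residue `0 ∈ Y`;
  if `f ∈ O_Q`, `f⁻¹ ∉ O_Q`: `f ∈ 𝔪_Q`; if both are in `O_Q` the residues are inverse to each other and `Y` is a valuation ring.
* `forall_toCF_mem_of_centre`: `b = t / s`, `s ∉ 𝔫_P` (`BP.exists_mul_eq`, `mem_nP_iff`), so `(toCF s)⁻¹ ∈ W` by `hs`, `toCF b = toCF t * (toCF s)⁻¹`.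
* `exists_imult_pos`: `W := compVal`; `hWO` from `hY` (the residue of `algebraMap Φ 𝕃 ω ∈ O_Q` is `algebraMap Φ κ(Q) ω`), `hWπ` from `hY'` with `ω = ϖ`
  (`ord_piO`; the residue of the inverse is the inverse of the residue).
  `obtain ⟨V, hV⟩ : ∃ V : KVal K FC, ∀ a, a ∈ V.toValuationSubring ↔ CF.inr K Φ FC a ∈ W := ⟨⟨W.comap (CF.inr K Φ FC).toRingHom, _⟩, fun _ => Iff.rfl⟩`,
  `obtain ⟨P, rfl, h1, h2⟩ := exists_centre v W hWO hWπ Q hWQ V hV`, then `forall_toCF_mem_of_centre`, `W ≤ O_Q`, `imult_pos_of_forall_mem`. -/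

set_option autoImplicit false

universe u

namespace Fermat.Agent.S26

open AlgebraicCurve TensorProduct IsLocalRing

variable {K : Type u} [Field K] [IsAlgClosed K]
variable {Φ FC : Type u} [Field Φ] [Algebra K Φ] [Field FC] [Algebra K FC] [FF1 K FC]

/-- the inverse of a unit of a valuation ring, and its residue -/
theorem compVal_inv {𝕃 : Type u} [Field 𝕃] (O : ValuationSubring 𝕃) {f : 𝕃} (h : f ∈ O)
    (hr : residue O ⟨f, h⟩ ≠ 0) :
    ∃ h' : f⁻¹ ∈ O, residue O ⟨f⁻¹, h'⟩ = (residue O ⟨f, h⟩)⁻¹ := by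
  have hu : IsUnit (⟨f, h⟩ : O) := by
    by_contra hn
    exact hr ((residue_eq_zero_iff _).mpr ((mem_maximalIdeal _).mpr hn))
  obtain ⟨u, hu⟩ := hu
  have h1 : ((↑u⁻¹ : O) : 𝕃) * f = 1 := by
    have : (↑u⁻¹ : O) * (⟨f, h⟩ : O) = 1 := by rw [← hu]; exact u.inv_mul
    exact congrArg Subtype.val this
  have h2 : f⁻¹ = ((↑u⁻¹ : O) : 𝕃) := (eq_inv_of_mul_eq_one_left h1).symm
  have h' : f⁻¹ ∈ O := by rw [h2]; exact (↑u⁻¹ : O).2
  refine ⟨h', eq_inv_of_mul_eq_one_left ?_⟩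
  rw [← map_mul]
  have : (⟨f⁻¹, h'⟩ : O) * ⟨f, h⟩ = 1 := by
    apply Subtype.ext
    show f⁻¹ * f = 1
    rw [h2, h1]
  rw [this, map_one]

/-- composite of a valuation ring and a valuation ring of its residue field -/
theorem exists_compVal_aux {𝕃 : Type u} [Field 𝕃] (O : ValuationSubring 𝕃)
    (Y : ValuationSubring (IsLocalRing.ResidueField O)) :
    ∃ W : ValuationSubring 𝕃, ∀ f : 𝕃, f ∈ W ↔ ∃ h : f ∈ O, residue O ⟨_, h⟩ ∈ Y := by
  refine ⟨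
    { carrier := {f | ∃ h : f ∈ O, residue O ⟨_, h⟩ ∈ Y}
      mul_mem' := ?_
      one_mem' := ?_
      add_mem' := ?_
      zero_mem' := ?_
      neg_mem' := ?_
      mem_or_inv_mem' := ?_ }, fun f => Iff.rfl⟩
  · rintro a b ⟨ha, ha'⟩ ⟨hb, hb'⟩
    refine ⟨O.mul_mem _ _ ha hb, ?_⟩
    have : (⟨a * b, O.mul_mem _ _ ha hb⟩ : O) = ⟨a, ha⟩ * ⟨b, hb⟩ := rfl
    rw [this, map_mul]
    exact Y.mul_mem _ _ ha' hb'
  · refine ⟨O.one_mem, ?_⟩
    have : (⟨1, O.one_mem⟩ : O) = 1 := rfl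
    rw [this, map_one]
    exact Y.one_mem
  · rintro a b ⟨ha, ha'⟩ ⟨hb, hb'⟩
    refine ⟨O.add_mem _ _ ha hb, ?_⟩
    have : (⟨a + b, O.add_mem _ _ ha hb⟩ : O) = ⟨a, ha⟩ + ⟨b, hb⟩ := rfl
    rw [this, map_add]
    exact Y.add_mem _ _ ha' hb'
  · refine ⟨O.zero_mem, ?_⟩
    have : (⟨0, O.zero_mem⟩ : O) = 0 := rfl
    rw [this, map_zero]
    exact Y.zero_mem
  · rintro a ⟨ha, ha'⟩
    refine ⟨O.neg_mem _ ha, ?_⟩
    have : (⟨-a, O.neg_mem _ ha⟩ : O) = -⟨a, ha⟩ := rfl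
    rw [this, map_neg]
    exact Y.neg_mem _ ha'
  · intro f
    by_cases hf : f ∈ O
    · by_cases hY : residue O ⟨f, hf⟩ ∈ Y
      · exact Or.inl ⟨hf, hY⟩
      · right
        have hr : residue O ⟨f, hf⟩ ≠ 0 := fun h => hY (h ▸ Y.zero_mem)
        obtain ⟨h', hres⟩ := compVal_inv O hf hr
        exact ⟨h', by rw [hres]; exact (Y.mem_or_inv_mem _).resolve_left hY⟩
    · right
      have hf' : f⁻¹ ∈ O := (O.mem_or_inv_mem f).resolve_left hf
      refine ⟨hf', ?_⟩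
      have : residue O ⟨f⁻¹, hf'⟩ = 0 := by
        by_contra hr
        obtain ⟨h', -⟩ := compVal_inv O hf' hr
        rw [inv_inv] at h'
        exact hf h'
      rw [this]
      exact Y.zero_mem

omit [IsAlgClosed K] [FF1 K FC] in
/-- composite of a place and a valuation ring of its residue field -/
theorem exists_compVal {𝕃 : Type u} [Field 𝕃] [Algebra Φ 𝕃] (Q : Place Φ 𝕃) (Y : ValuationSubring Q.ResidueField) :
    ∃ W : ValuationSubring 𝕃, ∀ f : 𝕃, f ∈ W ↔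
      ∃ h : f ∈ Q.toValuationSubring, residue Q.toValuationSubring ⟨_, h⟩ ∈ Y :=
  exists_compVal_aux Q.toValuationSubring Y

variable (v : Place K Φ)

theorem forall_toCF_mem_of_centre (W : ValuationSubring (CF K Φ FC))
    (P : Place v.ResidueField (CF K v.ResidueField FC))
    (ht : ∀ t : TP v P, TP.toCF v P t ∈ W)
    (hs : ∀ s : TP v P, (TP.toCF v P s)⁻¹ ∉ W → (TP.toCFbar v P s = 0 ∨ 0 < P.ord (TP.toCFbar v P s)))
    (b : BP v P) : BP.toCF v P b ∈ W := by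
  obtain ⟨t, s, hsn, hb⟩ := BP.exists_mul_eq v P b
  have h1 : BP.toCF v P b * TP.toCF v P s = TP.toCF v P t := by
    rw [← BP.toCF_algebraMap, ← BP.toCF_algebraMap, ← map_mul, hb]
  have hs0 : TP.toCF v P s ≠ 0 := by
    intro h0
    have : s = 0 := TV.toCF_injective v (RP P) (by rw [h0, map_zero])
    exact hsn (this ▸ (nP v P).zero_mem)
  have hsW : (TP.toCF v P s)⁻¹ ∈ W := by
    by_contra hcon
    exact hsn ((mem_nP_iff v P s).mpr (hs s hcon))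
  have h2 : BP.toCF v P b = TP.toCF v P t * (TP.toCF v P s)⁻¹ := by
    rw [← h1, mul_assoc, mul_inv_cancel₀ hs0, mul_one]
  rw [h2]
  exact W.mul_mem _ _ (ht t) hsW

/-- (S3) centre criterion.  `Y` a valuation ring of the residue field `κ(Q)` dominating `𝒪`.  Then the
composite valuation ring `{f ∈ O_Q | f(Q) ∈ Y}` has a centre `P` on the special fibre, `Q` passes through `P`,
and `R_P = {a ∈ FC | a ∈ O_Q, a(Q) ∈ Y}`. -/
theorem exists_imult_pos (Q : Place Φ (CF K Φ FC)) (Y : ValuationSubring Q.ResidueField)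
    (hY : ∀ ω : v.toValuationSubring, algebraMap Φ Q.ResidueField ω ∈ Y)
    (hY' : ∀ ω : v.toValuationSubring, 0 < v.ord (ω : Φ) → (algebraMap Φ Q.ResidueField ω)⁻¹ ∉ Y) :
    ∃ P : Place v.ResidueField (CF K v.ResidueField FC), 0 < imult v Q P ∧
      ∀ a : FC, a ∈ traceFC P ↔
        ∃ h : CF.inr K Φ FC a ∈ Q.toValuationSubring, residue Q.toValuationSubring ⟨_, h⟩ ∈ Y := by
  obtain ⟨W, hW⟩ := exists_compVal Q Y
  have hres : ∀ x : Φ, residue Q.toValuationSubring ⟨algebraMap Φ (CF K Φ FC) x, Q.algebraMap_mem' x⟩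
      = algebraMap Φ Q.ResidueField x := fun x => rfl
  have hWO : ∀ ω : v.toValuationSubring, algebraMap Φ (CF K Φ FC) ω ∈ W := fun ω =>
    (hW _).mpr ⟨Q.algebraMap_mem' _, by rw [hres]; exact hY ω⟩
  have hWπ : (algebraMap Φ (CF K Φ FC) (piO v))⁻¹ ∉ W := by
    intro hmem
    obtain ⟨h, hy⟩ := (hW _).mp hmem
    have hπ0 : ((piO v : v.toValuationSubring) : Φ) ≠ 0 :=
      Fermat.Agent.S24.FF.ne_zero_of_ord_ne_zero v (by rw [ord_piO]; exact one_ne_zero)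
    have hr : residue Q.toValuationSubring
        ⟨algebraMap Φ (CF K Φ FC) (piO v), Q.algebraMap_mem' _⟩ ≠ 0 := by
      rw [hres]
      exact (map_ne_zero _).mpr hπ0
    obtain ⟨h', hinv⟩ := compVal_inv Q.toValuationSubring (Q.algebraMap_mem' _) hr
    rw [hres] at hinv
    exact hY' (piO v) (by rw [ord_piO]; exact one_pos) (hinv ▸ hy)
  have hWQ : W ≤ Q.toValuationSubring := fun f hf => ((hW f).mp hf).1
  obtain ⟨V, hV⟩ : ∃ V : KVal K FC, ∀ a, a ∈ V.toValuationSubring ↔ CF.inr K Φ FC a ∈ W :=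
    ⟨⟨W.comap (CF.inr K Φ FC).toRingHom, fun a => by
      show (CF.inr K Φ FC) (algebraMap K FC a) ∈ W
      rw [AlgHom.commutes, IsScalarTower.algebraMap_apply K Φ (CF K Φ FC)]
      exact hWO ⟨algebraMap K Φ a, v.algebraMap_mem' a⟩⟩, fun _ => Iff.rfl⟩
  obtain ⟨P, rfl, h1, h2⟩ := exists_centre v W hWO hWπ Q hWQ V hV
  refine ⟨P, imult_pos_of_forall_mem v Q P fun b =>
    hWQ (forall_toCF_mem_of_centre v W P h1 h2 b), fun a => ?_⟩
  exact (hV a).trans (hW _)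

end Fermat.Agent.S26
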