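import Fermat.Agent.S26.Curve.Spec.Imult

/-! # S26 / M5-S2 : constant points specialise to themselves.

`c` a place of `FC/K`, `c_Φ = constPlace Φ c`, `c_κ = constPlace κ c`.

CASE `P = c_κ`.  `R_P = O_c` (`traceFC_constPlace`).  Let `τ ∈ O_c` be a uniformiser (`exists_ord_eq_one`).
* `exists_decomp`: every `s ∈ 𝒪 ⊗ O_c` is `ω ⊗ 1 + (1 ⊗ τ) * s'` (induction on tensors: `a = ρ a + τ a'` with `ρ a ∈ K`, the residue field of `c` is `K`:
  `ConstAux.rho`, `ConstAux.rho_eq_zero_iff` of `Curve/Const.lean`, or `Fermat.Agent.S24.FF.exists_sub_ord_pos`).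
* hence `toCFbar s = res ω + τ * (element of O_{c_κ})` and `toCF s = ω + τ * (element of O_{c_Φ})` (`ord_constPlace_inr`, `TP.toCFbar_mem`).
  So `s ∉ 𝔫_P ⇒ res ω ≠ 0 ⇒ ω ≠ 0 ⇒ ord_{c_Φ} (toCF s) = 0`: this gives `toCF_mem_constPlace` (`B_P ⊆ O_{c_Φ}`; `BP.exists_mul_eq`).
* `exists_isGen` (`Alg/Through.lean`) gives a generator `h` of the centre of `c_Φ`; `h ∣ fromR τ` (as `ord_{c_Φ} τ = 1 > 0`), `fromR τ = h * u`;
  `lamP (fromR τ) = ord_{c_κ} τ = 1 = lamP h + lamP u` (`lamP_mul`; `¬ π ∣ fromR τ` because `red (fromR τ) = τ ≠ 0`), `lamP h > 0`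
  (`imult_eq_of_isGen`), `lamP u ≥ 0`: so `imult = lamP h = 1`.

CASE `P ≠ c_κ`.  If `imult ≠ 0` then `B_P ⊆ O_{c_Φ}` (S4 = `toCF_mem_of_imult_ne_zero`), so (`BP.toCF_fromR`) `R_P ⊆ traceFC c_Φ = O_c`.
By `exists_eq_constPlace_or_isNonconst P`: `R_P = ⊤` is impossible (`c.ne_top'`), `P = c'_κ` gives `O_c' ≤ O_c`, `c' = c`
(`Fermat.Agent.S24.FF.eq_of_le`). -/

set_option autoImplicit false

universe u

namespace Fermat.Agent.S26

open AlgebraicCurve TensorProduct IsLocalRing

variable {K : Type u} [Field K] [IsAlgClosed K]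
variable {Φ FC : Type u} [Field Φ] [Algebra K Φ] [Field FC] [Algebra K FC] [FF1 K FC]

variable (v : Place K Φ)

namespace ConstS2

/-- `T_P → O_{c_Φ}` -/
theorem toCF_mem (c : Place K FC) (t : TP v (constPlace v.ResidueField c)) :
    TP.toCF v (constPlace v.ResidueField c) t ∈ (constPlace Φ c).toValuationSubring := by
  induction t using TensorProduct.induction_on with
  | zero => rw [map_zero]; exact zero_mem _
  | tmul ω a =>
    rw [TV.toCF_tmul]
    refine mul_mem ((constPlace Φ c).algebraMap_mem' _) ?_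
    have ha : (a : FC) ∈ traceFC (constPlace v.ResidueField c) := a.2
    rw [traceFC_constPlace, ← traceFC_constPlace (Ω := Φ) c] at ha
    exact ha
  | add x y hx hy => rw [map_add]; exact add_mem hx hy

/-- a uniformiser of `c`, as an element of `R_P`. -/
theorem exists_tau (c : Place K FC) :
    ∃ τ : (RP (constPlace v.ResidueField c)).toValuationSubring, c.ord (τ : FC) = 1 := by
  obtain ⟨τ, hτ⟩ := Fermat.Agent.S24.FF.exists_ord_eq_one c
  have h : τ ∈ traceFC (constPlace v.ResidueField c) := by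
    rw [traceFC_constPlace]
    exact Fermat.Agent.S24.FF.mem_of_ord_nonneg c (by rw [hτ]; exact zero_le_one)
  exact ⟨⟨τ, h⟩, hτ⟩

theorem mem_RP_iff (c : Place K FC) (x : FC) :
    x ∈ (RP (constPlace v.ResidueField c)).toValuationSubring ↔ x ∈ c.toValuationSubring := by
  show x ∈ traceFC (constPlace v.ResidueField c) ↔ _
  rw [traceFC_constPlace]

theorem exists_decomp_elem (c : Place K FC)
    (τ : (RP (constPlace v.ResidueField c)).toValuationSubring) (hτ : c.ord (τ : FC) = 1)
    (a : (RP (constPlace v.ResidueField c)).toValuationSubring) :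
    ∃ (r : K) (a' : (RP (constPlace v.ResidueField c)).toValuationSubring),
      a = algebraMap K _ r + τ * a' := by
  have ha : (a : FC) ∈ c.toValuationSubring := (mem_RP_iff v c _).1 a.2
  have hτ0 : (τ : FC) ≠ 0 := Fermat.Agent.S24.FF.ne_zero_of_ord_ne_zero c (by rw [hτ]; exact one_ne_zero)
  set a₀ : c.toValuationSubring := ⟨a, ha⟩ with ha₀
  set r : K := ConstAux.rho c a₀ with hr
  have h1 : ConstAux.rho c (a₀ - algebraMap K _ r) = 0 := by
    rw [map_sub, AlgHom.commutes]
    simp [hr]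
  rw [ConstAux.rho_eq_zero_iff] at h1
  have h2 : ((a : FC) - algebraMap K FC r) / τ ∈ c.toValuationSubring := by
    rcases h1 with h1 | h1
    · have h3 : (a : FC) - algebraMap K FC r = 0 := congrArg Subtype.val h1
      rw [h3, zero_div]; exact zero_mem _
    · have h3 : 0 < c.ord ((a : FC) - algebraMap K FC r) := h1
      apply Fermat.Agent.S24.FF.mem_of_ord_nonneg
      rw [Fermat.Agent.S24.FF.ord_div c (Fermat.Agent.S24.FF.ne_zero_of_ord_ne_zero c h3.ne') hτ0, hτ]
      omega
  refine ⟨r, ⟨_, (mem_RP_iff v c _).2 h2⟩, ?_⟩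
  apply Subtype.ext
  show (a : FC) = algebraMap K FC r + τ * (((a : FC) - algebraMap K FC r) / τ)
  field_simp
  ring

theorem exists_decomp (c : Place K FC)
    (τ : (RP (constPlace v.ResidueField c)).toValuationSubring) (hτ : c.ord (τ : FC) = 1)
    (s : TP v (constPlace v.ResidueField c)) :
    ∃ (ω : v.toValuationSubring) (s' : TP v (constPlace v.ResidueField c)),
      s = ω ⊗ₜ 1 + (1 ⊗ₜ τ) * s' := by
  induction s using TensorProduct.induction_on with
  | zero => exact ⟨0, 0, by simp⟩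
  | tmul ω a =>
    obtain ⟨r, a', ha⟩ := exists_decomp_elem v c τ hτ a
    refine ⟨r • ω, ω ⊗ₜ a', ?_⟩
    rw [ha, TensorProduct.tmul_add, Algebra.TensorProduct.tmul_mul_tmul, one_mul,
      Algebra.algebraMap_eq_smul_one, TensorProduct.tmul_smul, TensorProduct.smul_tmul']
  | add x y hx hy =>
    obtain ⟨ω, s', h⟩ := hx
    obtain ⟨ω', s'', h'⟩ := hy
    refine ⟨ω + ω', s' + s'', ?_⟩
    rw [h, h', TensorProduct.add_tmul, mul_add]
    abel

/-- `s ∉ 𝔫_P ⇒ ord_{c_Φ} (toCF s) = 0`. -/
theorem ord_toCF_eq_zero (c : Place K FC) (s : TP v (constPlace v.ResidueField c))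
    (hs : s ∉ nP v (constPlace v.ResidueField c)) :
    TP.toCF v (constPlace v.ResidueField c) s ≠ 0 ∧
      (constPlace Φ c).ord (TP.toCF v (constPlace v.ResidueField c) s) = 0 := by
  obtain ⟨τ, hτ⟩ := exists_tau v c
  obtain ⟨ω, s', rfl⟩ := exists_decomp v c τ hτ s
  have hω : residue v.toValuationSubring ω ≠ 0 := by
    intro h0
    apply hs
    rw [mem_nP_iff, map_add, map_mul, TV.toCFbar_tmul, TV.toCFbar_tmul, h0]
    simp only [map_zero, zero_mul, zero_add, map_one, one_mul]
    by_cases h1 : TP.toCFbar v (constPlace v.ResidueField c) s' = 0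
    · left; rw [h1, mul_zero]
    · right
      have h2 : (constPlace v.ResidueField c).ord (CF.inr K v.ResidueField FC (τ : FC)) = 1 := by
        rw [ord_constPlace_inr, hτ]
      rw [Place.ord_mul _ (Fermat.Agent.S24.FF.ne_zero_of_ord_ne_zero _ (by rw [h2]; exact one_ne_zero)) h1,
        h2]
      have h3 := Fermat.Agent.S24.FF.ord_nonneg_of_mem _ (TP.toCFbar_mem v _ s')
      omega
  have hω0 : (ω : Φ) ≠ 0 := by
    intro h0
    apply hω
    have : ω = 0 := Subtype.ext h0
    rw [this, map_zero]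
  have hA : algebraMap Φ (CF K Φ FC) (ω : Φ) ≠ 0 := by simpa using hω0
  have hAord : (constPlace Φ c).ord (algebraMap Φ (CF K Φ FC) (ω : Φ)) = 0 :=
    Fermat.Agent.S24.FF.ord_algebraMap _ _
  rw [map_add, map_mul, TV.toCF_tmul, TV.toCF_tmul]
  simp only [map_one, one_mul, mul_one, OneMemClass.coe_one]
  by_cases h1 : TP.toCF v (constPlace v.ResidueField c) s' = 0
  · rw [h1, mul_zero, add_zero]
    exact ⟨hA, hAord⟩
  · have h2 : (constPlace Φ c).ord (CF.inr K Φ FC (τ : FC)) = 1 := by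
      rw [ord_constPlace_inr, hτ]
    have h20 : CF.inr K Φ FC (τ : FC) ≠ 0 :=
      Fermat.Agent.S24.FF.ne_zero_of_ord_ne_zero _ (by rw [h2]; exact one_ne_zero)
    have h3 := Fermat.Agent.S24.FF.ord_nonneg_of_mem _ (toCF_mem v c s')
    have h4 : (constPlace Φ c).ord (algebraMap Φ (CF K Φ FC) (ω : Φ)) <
        (constPlace Φ c).ord (CF.inr K Φ FC (τ : FC) * TP.toCF v (constPlace v.ResidueField c) s') := by
      rw [Place.ord_mul _ h20 h1, h2, hAord]
      omega
    have h5 := Fermat.Agent.S24.FF.ord_add_eq_of_lt _ hA (mul_ne_zero h20 h1) h4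
    refine ⟨?_, by rw [h5, hAord]⟩
    intro h0
    have h6 := eq_neg_of_add_eq_zero_left h0
    rw [h6, Fermat.Agent.S24.FF.ord_neg] at h4
    exact lt_irrefl _ h4

end ConstS2

/-- `B_{c_κ} ⊆ O_{c_Φ}` -/
theorem toCF_mem_constPlace (c : Place K FC) (b : BP v (constPlace v.ResidueField c)) :
    BP.toCF v (constPlace v.ResidueField c) b ∈ (constPlace Φ c).toValuationSubring := by
  obtain ⟨t, s, hs, h⟩ := BP.exists_mul_eq v _ b
  obtain ⟨hs0, hsord⟩ := ConstS2.ord_toCF_eq_zero v c s hs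
  have h1 := congrArg (BP.toCF v (constPlace v.ResidueField c)) h
  rw [map_mul, BP.toCF_algebraMap, BP.toCF_algebraMap] at h1
  by_cases hb : BP.toCF v (constPlace v.ResidueField c) b = 0
  · rw [hb]; exact zero_mem _
  apply Fermat.Agent.S24.FF.mem_of_ord_nonneg
  have h2 := Fermat.Agent.S24.FF.ord_nonneg_of_mem _ (ConstS2.toCF_mem v c t)
  rw [← h1, Place.ord_mul _ hb hs0, hsord, add_zero] at h2
  exact h2

theorem imult_constPlace_self (c : Place K FC) :
    imult v (constPlace Φ c) (constPlace v.ResidueField c) = 1 := by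
  set P := constPlace v.ResidueField c with hP
  obtain ⟨τ, hτ⟩ := ConstS2.exists_tau v c
  obtain ⟨h, hh⟩ := exists_isGen (BP.toCF v P).toRingHom (BP.toCF_injective v P)
    (BP.exists_fraction v P) (BP.piB v P) (BP.prime_piB v P)
    ⟨(piO v : Φ), BP.toCF_fromO v P (piO v)⟩ (BP.exists_eq_span v P) (constPlace Φ c)
    (toCF_mem_constPlace v c)
  obtain ⟨h1, h2⟩ := imult_eq_of_isGen v (constPlace Φ c) P h hh
  have h3 : h ∣ BP.fromR v P τ := by
    rw [← hh.2]
    right
    show 0 < (constPlace Φ c).ord (BP.toCF v P (BP.fromR v P τ))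
    rw [BP.toCF_fromR, ord_constPlace_inr, hτ]
    exact one_pos
  obtain ⟨u, hu⟩ := h3
  have hred : ((BP.red v P (BP.fromR v P τ) : (P.restrictConst K).toValuationSubring) :
      CF K v.ResidueField FC) = CF.inr K v.ResidueField FC (τ : FC) := by
    have : BP.fromR v P τ = algebraMap (TP v P) (BP v P) (1 ⊗ₜ τ) := rfl
    rw [this, BP.red_algebraMap, TV.toCFbar_tmul]
    simp
  have hlam : lamP v P (BP.fromR v P τ) = 1 := by
    unfold lamP
    rw [hred, ord_constPlace_inr, hτ]
  have hnd : ¬ BP.piB v P ∣ BP.fromR v P τ := by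
    rw [← BP.red_eq_zero_iff]
    intro h0
    rw [h0] at hred
    have h4 : (constPlace v.ResidueField c).ord (CF.inr K v.ResidueField FC (τ : FC)) = 1 := by
      rw [ord_constPlace_inr, hτ]
    rw [← hred] at h4
    simp at h4
  have hndh : ¬ BP.piB v P ∣ h := fun hd => hnd (hu ▸ Dvd.dvd.mul_right hd u)
  have hndu : ¬ BP.piB v P ∣ u := fun hd => hnd (hu ▸ Dvd.dvd.mul_left hd h)
  have h5 := lamP_mul v P h u hndh hndu
  rw [← hu, hlam] at h5
  have h6 := lamP_nonneg v P u
  omega

theorem imult_constPlace_of_ne (c : Place K FC) (P : Place v.ResidueField (CF K v.ResidueField FC))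
    (hP : P ≠ constPlace v.ResidueField c) : imult v (constPlace Φ c) P = 0 := by
  by_contra hne
  have h1 := toCF_mem_of_imult_ne_zero v (constPlace Φ c) P hne
  have h2 : traceFC P ≤ c.toValuationSubring := by
    intro a ha
    have h3 := h1 (BP.fromR v P ⟨a, ha⟩)
    rw [BP.toCF_fromR] at h3
    rw [← traceFC_constPlace (Ω := Φ) c]
    exact h3
  rcases exists_eq_constPlace_or_isNonconst P with ⟨c', rfl⟩ | hnc
  · rw [traceFC_constPlace] at h2
    exact hP (by rw [Fermat.Agent.S24.FF.eq_of_le h2])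
  · rw [show traceFC P = ⊤ from hnc] at h2
    exact c.ne_top' (top_le_iff.mp h2)

open Classical in
/-- (S2) constant points specialise to themselves. -/
theorem imult_constPlace (c : Place K FC) (P : Place v.ResidueField (CF K v.ResidueField FC)) :
    imult v (constPlace Φ c) P = if P = constPlace v.ResidueField c then 1 else 0 := by
  split_ifs with h
  · rw [h]; exact imult_constPlace_self v c
  · exact imult_constPlace_of_ne v c P h

end Fermat.Agent.S26
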