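import Fermat.Agent.S26.Curve.Spec.BPStruct
import Fermat.Agent.S26.Alg.SumFormula

/-! # S26 / M5-Imult : the multiplicities `imult v Q P`, (S4) and (S1).

`imult v Q P = genMult (toCF) (b ↦ ord_P (red b)) Q`: if `B_P ⊆ O_Q` and `m_Q ∩ B_P = (b)` then `imult v Q P = ord_P (b mod π)`, else `0`.

All the work is in `Alg/Through.lean`, `Alg/SumFormula.lean`, applied to `B := BP v P`, `ι := (BP.toCF v P).toRingHom`, `π := BP.piB v P`
(`BP.toCF_injective`, `BP.exists_fraction`, `BP.prime_piB`, `BP.toCF_fromO`, `BP.exists_mul_pow`, `BP.exists_eq_span`).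

* `imult_pos_of_isGen`: the chosen generator is a prime (`IsGen.prime`), not a unit, so `red` of it is not a unit (`BP.isLocalHom_red`), and it is
  nonzero (`IsGen.not_dvd_pi` + both prime ⇒ `¬ π ∣ b`, `BP.red_eq_zero_iff`).
* (S1): `f = a / b` (`BP.exists_fraction`), cancel powers of `π` (`exists_rep` with `p = π`: `f * ι b = ι π ^ k * ι a`; `ord_G f = 0`,
  `BP.ord_gauss_toCF_eq_zero_iff`, `ord_G (ι π) = ord_v ϖ = 1` ⇒ `k = 0`).  Then `gaussRed f * red b = red a` (`BP.gaussRed_toCF`), and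
  `sum_formula` with `lam b := ord_P (red b)`, `D b := ¬ π ∣ b` for `a` and for `b`; subtract (`finsum_sub_distrib` with the two finiteness statements;
  `ord_Q f = ord_Q (ι a) - ord_Q (ι b)`). -/

set_option autoImplicit false

universe u

namespace Fermat.Agent.S26

open AlgebraicCurve TensorProduct IsLocalRing

variable {K : Type u} [Field K] [IsAlgClosed K]
variable {Φ FC : Type u} [Field Φ] [Algebra K Φ] [Field FC] [Algebra K FC] [FF1 K FC]

/-- `b ↦ ord_P (b mod π)` -/
noncomputable def lamP (v : Place K Φ) (P : Place v.ResidueField (CF K v.ResidueField FC)) (b : BP v P) : ℤ :=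
  P.ord ((BP.red v P b : (P.restrictConst K).toValuationSubring) : CF K v.ResidueField FC)

/-- `imult v Q P` : the multiplicity of `P` in the specialisation of the place `Q` of `Φ(C)/Φ`. -/
noncomputable def imult (v : Place K Φ) (Q : Place Φ (CF K Φ FC))
    (P : Place v.ResidueField (CF K v.ResidueField FC)) : ℤ :=
  genMult (BP.toCF v P).toRingHom (lamP v P) Q

variable (v : Place K Φ)

theorem lamP_nonneg (P : Place v.ResidueField (CF K v.ResidueField FC)) (b : BP v P) : 0 ≤ lamP v P b :=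
  Fermat.Agent.S24.FF.ord_nonneg_of_mem P (BP.red v P b).2

theorem red_coe_ne_zero (P : Place v.ResidueField (CF K v.ResidueField FC)) (a : BP v P)
    (ha : ¬ BP.piB v P ∣ a) :
    ((BP.red v P a : (P.restrictConst K).toValuationSubring) : CF K v.ResidueField FC) ≠ 0 := by
  intro h
  exact ha ((BP.red_eq_zero_iff v P a).mp (Subtype.ext h))

theorem lamP_mul (P : Place v.ResidueField (CF K v.ResidueField FC)) (a b : BP v P)
    (ha : ¬ BP.piB v P ∣ a) (hb : ¬ BP.piB v P ∣ b) : lamP v P (a * b) = lamP v P a + lamP v P b := by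
  unfold lamP
  rw [map_mul]
  exact P.ord_mul (red_coe_ne_zero v P a ha) (red_coe_ne_zero v P b hb)

theorem lamP_eq_zero_iff (P : Place v.ResidueField (CF K v.ResidueField FC)) (b : BP v P)
    (hb : ¬ BP.piB v P ∣ b) : lamP v P b = 0 ↔ IsUnit b := by
  have hb0 := red_coe_ne_zero v P b hb
  constructor
  · intro h
    have hinv : ((BP.red v P b : (P.restrictConst K).toValuationSubring) : CF K v.ResidueField FC)⁻¹
        ∈ (P.restrictConst K).toValuationSubring :=
      Fermat.Agent.S24.FF.mem_of_ord_nonneg P (by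
        rw [Place.ord_inv]
        have : P.ord ((BP.red v P b : (P.restrictConst K).toValuationSubring) :
          CF K v.ResidueField FC) = 0 := h
        rw [this]; simp)
    have hu : IsUnit (BP.red v P b) :=
      isUnit_iff_exists_inv.mpr ⟨⟨_, hinv⟩, Subtype.ext (mul_inv_cancel₀ hb0)⟩
    have := BP.isLocalHom_red v P
    exact isUnit_of_map_unit (BP.red v P).toRingHom b hu
  · intro hu
    obtain ⟨c, hc⟩ := isUnit_iff_exists_inv.mp hu
    have hc' : ¬ BP.piB v P ∣ c := by
      intro hd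
      exact (BP.prime_piB v P).not_isUnit (isUnit_of_dvd_one (hc ▸ Dvd.dvd.mul_left hd b))
    have h1 := lamP_mul v P b c hb hc'
    have h2 : lamP v P (b * c) = 0 := by
      rw [hc]; unfold lamP; rw [show BP.red v P 1 = 1 from map_one _]; exact P.ord_one
    have h3 := lamP_nonneg v P b
    have h4 := lamP_nonneg v P c
    omega

theorem piB_toCF_eq (P : Place v.ResidueField (CF K v.ResidueField FC)) :
    ∃ ϖ : Φ, (BP.toCF v P).toRingHom (BP.piB v P) = algebraMap Φ (CF K Φ FC) ϖ :=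
  ⟨piO v, BP.toCF_fromO v P (piO v)⟩

theorem IsGen.not_piB_dvd {Q : Place Φ (CF K Φ FC)} {P : Place v.ResidueField (CF K v.ResidueField FC)}
    {b : BP v P} (hb : IsGen (BP.toCF v P).toRingHom Q b) : ¬ BP.piB v P ∣ b := by
  intro hd
  have hbp : Prime b := IsGen.prime _ (BP.toCF_injective v P) (BP.exists_fraction v P) hb
  have h1 := ((BP.prime_piB v P).dvd_prime_iff_associated hbp).mp hd
  exact IsGen.not_dvd_pi _ (BP.toCF_injective v P) _ (BP.prime_piB v P) (piB_toCF_eq v P) hb h1.symm.dvd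

/-- if `Q` is centred on `B_P` then `imult v Q P > 0`, and it can be computed with any generator. -/
theorem imult_eq_of_isGen (Q : Place Φ (CF K Φ FC)) (P : Place v.ResidueField (CF K v.ResidueField FC))
    (b : BP v P) (hb : IsGen (BP.toCF v P).toRingHom Q b) : imult v Q P = lamP v P b ∧ 0 < imult v Q P := by
  have hex : ∃ b : BP v P, IsGen (BP.toCF v P).toRingHom Q b := ⟨b, hb⟩
  have hg : IsGen (BP.toCF v P).toRingHom Q hex.choose := hex.choose_spec
  have e : imult v Q P = lamP v P hex.choose := by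
    unfold imult genMult
    rw [dif_pos hex]
  have h1 : hex.choose ∣ b := (hg.2 b).mp ((hb.2 b).mpr dvd_rfl)
  have h2 : b ∣ hex.choose := (hb.2 _).mp ((hg.2 _).mpr dvd_rfl)
  obtain ⟨u, hu⟩ := associated_of_dvd_dvd h2 h1
  have hbπ := IsGen.not_piB_dvd v hb
  have huπ : ¬ BP.piB v P ∣ (u : BP v P) := fun hd =>
    (BP.prime_piB v P).not_isUnit (isUnit_of_dvd_unit hd u.isUnit)
  have h3 : lamP v P hex.choose = lamP v P b := by
    rw [← hu, lamP_mul v P b u hbπ huπ, (lamP_eq_zero_iff v P u huπ).mpr u.isUnit, add_zero]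
  have hbp : Prime b := IsGen.prime _ (BP.toCF_injective v P) (BP.exists_fraction v P) hb
  have h4 : lamP v P b ≠ 0 := fun h => hbp.not_isUnit ((lamP_eq_zero_iff v P b hbπ).mp h)
  have h5 := lamP_nonneg v P b
  rw [e, h3]
  exact ⟨rfl, by omega⟩

/-- `Q` passes through `P` as soon as `B_P ⊆ O_Q`. -/
theorem imult_pos_of_forall_mem (Q : Place Φ (CF K Φ FC)) (P : Place v.ResidueField (CF K v.ResidueField FC))
    (h : ∀ b : BP v P, BP.toCF v P b ∈ Q.toValuationSubring) : 0 < imult v Q P := by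
  obtain ⟨b, hb⟩ := exists_isGen (BP.toCF v P).toRingHom (BP.toCF_injective v P) (BP.exists_fraction v P)
    (BP.piB v P) (BP.prime_piB v P) (piB_toCF_eq v P) (BP.exists_eq_span v P) Q h
  exact (imult_eq_of_isGen v Q P b hb).2

theorem imult_nonneg (Q : Place Φ (CF K Φ FC)) (P : Place v.ResidueField (CF K v.ResidueField FC)) :
    0 ≤ imult v Q P := by
  unfold imult genMult
  split_ifs with h
  · exact lamP_nonneg v P _
  · exact le_refl _

/-- (S4) -/
theorem toCF_mem_of_imult_ne_zero (Q : Place Φ (CF K Φ FC))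
    (P : Place v.ResidueField (CF K v.ResidueField FC)) (h : imult v Q P ≠ 0) (b : BP v P) :
    BP.toCF v P b ∈ Q.toValuationSubring := by
  unfold imult genMult at h
  split_ifs at h with h'
  · exact h'.choose_spec.1 b
  · exact absurd rfl h

/-- the sum formula for `lamP`. -/
theorem lamP_eq_finsum (P : Place v.ResidueField (CF K v.ResidueField FC)) (a : BP v P)
    (ha : ¬ BP.piB v P ∣ a) :
    {Q : Place Φ (CF K Φ FC) | Q.ord (BP.toCF v P a) * imult v Q P ≠ 0}.Finite ∧
      lamP v P a = ∑ᶠ Q : Place Φ (CF K Φ FC), Q.ord (BP.toCF v P a) * imult v Q P := by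
  have hπ := BP.prime_piB v P
  have h1 : ∀ u : BP v P, IsUnit u → ¬ BP.piB v P ∣ u ∧ lamP v P u = 0 := by
    intro u hu
    have huπ : ¬ BP.piB v P ∣ u := fun hd => hπ.not_isUnit (isUnit_of_dvd_unit hd hu)
    exact ⟨huπ, (lamP_eq_zero_iff v P u huπ).mpr hu⟩
  have h2 : ∀ a b : BP v P, ¬ BP.piB v P ∣ a * b ↔ ¬ BP.piB v P ∣ a ∧ ¬ BP.piB v P ∣ b := by
    intro a b
    rw [hπ.dvd_mul, not_or]
  have key := sum_formula (BP.toCF v P).toRingHom (BP.toCF_injective v P) (BP.exists_fraction v P)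
    (BP.piB v P) hπ (piB_toCF_eq v P) (BP.exists_mul_pow v P) (lamP v P)
    (fun x => ¬ BP.piB v P ∣ x) h1 h2 (lamP_mul v P) a ha (fun h => ha (h ▸ dvd_zero _)) ha
  exact key

/-- (S1) specialisation of principal divisors: `ord_P (f̄) = ∑_Q ord_Q(f) · i(Q,P)` if `f` is a Gauss unit. -/
theorem ord_gaussRed_eq_finsum (f : (gauss v FC).toValuationSubring)
    (hf : (gauss v FC).ord (f : CF K Φ FC) = 0) (hf0 : f ≠ 0)
    (P : Place v.ResidueField (CF K v.ResidueField FC)) :
    P.ord (gaussRed v FC f) = ∑ᶠ Q : Place Φ (CF K Φ FC), Q.ord (f : CF K Φ FC) * imult v Q P := by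
  have hπ := BP.prime_piB v P
  have hf0' : (f : CF K Φ FC) ≠ 0 := fun h => hf0 (Subtype.ext h)
  obtain ⟨k, a, b, ha, hb, hfab⟩ := exists_rep (BP.toCF v P).toRingHom (BP.toCF_injective v P)
    (BP.exists_fraction v P) (BP.piB v P) hπ (f : CF K Φ FC) hf0'
  have hfab' : (f : CF K Φ FC) * BP.toCF v P b = BP.toCF v P (BP.piB v P) ^ k * BP.toCF v P a := hfab
  have ha0 : a ≠ 0 := fun h => ha (h ▸ dvd_zero _)
  have hb0 : b ≠ 0 := fun h => hb (h ▸ dvd_zero _)
  have ha0' : BP.toCF v P a ≠ 0 := fun h => ha0 (BP.toCF_injective v P (by rw [h, map_zero]))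
  have hb0' : BP.toCF v P b ≠ 0 := fun h => hb0 (BP.toCF_injective v P (by rw [h, map_zero]))
  have hπ0' : BP.toCF v P (BP.piB v P) ≠ 0 :=
    fun h => hπ.ne_zero (BP.toCF_injective v P (by rw [h, map_zero]))
  have oa := (BP.ord_gauss_toCF_eq_zero_iff v P a ha0).mpr ha
  have ob := (BP.ord_gauss_toCF_eq_zero_iff v P b hb0).mpr hb
  have oπ : (gauss v FC).ord (BP.toCF v P (BP.piB v P)) = 1 := by
    rw [BP.piB, BP.toCF_fromO, (gaussData v FC).ord_inl, ord_piO]
  have hk : k = 0 := by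
    have h1 := congrArg (gauss v FC).ord hfab'
    rw [Place.ord_mul _ hf0' hb0', Place.ord_mul _ (zpow_ne_zero _ hπ0') ha0', Place.ord_zpow, hf, ob, oa,
      oπ] at h1
    omega
  rw [hk, zpow_zero, one_mul] at hfab'
  -- reduction
  have h1 : f * ⟨_, BP.toCF_mem_gauss v P b⟩ = ⟨_, BP.toCF_mem_gauss v P a⟩ := Subtype.ext hfab'
  have h2 := congrArg (gaussRed v FC) h1
  rw [map_mul, BP.gaussRed_toCF, BP.gaussRed_toCF] at h2
  have hρf : gaussRed v FC f ≠ 0 := by
    intro h
    rcases (gaussRed_eq_zero_iff v FC f).mp h with h | h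
    · exact hf0 h
    · omega
  have h3 : P.ord (gaussRed v FC f) = lamP v P a - lamP v P b := by
    have := congrArg P.ord h2
    rw [P.ord_mul hρf (red_coe_ne_zero v P b hb)] at this
    unfold lamP
    omega
  obtain ⟨fa, sa⟩ := lamP_eq_finsum v P a ha
  obtain ⟨fb, sb⟩ := lamP_eq_finsum v P b hb
  rw [h3, sa, sb, ← finsum_sub_distrib fa fb]
  refine finsum_congr fun Q => ?_
  have h4 := congrArg Q.ord hfab'
  rw [Q.ord_mul hf0' hb0'] at h4
  have h5 : Q.ord (f : CF K Φ FC) = Q.ord (BP.toCF v P a) - Q.ord (BP.toCF v P b) := by omega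
  rw [h5]; ring

end Fermat.Agent.S26
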