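import Fermat.Agent.S26.Curve.Spec.SectionA

/-! # S26 / M5-SecB : reduction of rational points.

`exists_redCPt_compat`: three cases.
1. `p = const c`: `q := const c`.  `traceFC q.place = O_c` (`traceFC_constPlace`).  For `a ∈ O_c`: `a(p) = ρ a ∈ K` (the value of `a` at `c`), on both sides
   (`exists_constEval` / `CPt.eval_const_inr` in `Curve/Points.lean`), `ω := algebraMap K 𝒪 (ρ a)`.
2. `p = gen ι`, `ι a ∈ 𝒪` for all `a`: `q := gen ι'`, `ι' := (residue) ∘ ι : FC →ₐ[K] κ`.  `a(p) = ι a`, `a(q) = ι' a` (`exists_genPlace`, `CPt.eval_gen_inr`).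
3. `p = gen ι`, `ι a₀ ∉ 𝒪` for some `a₀`: `𝒪.comap ι` is a valuation ring of `FC` containing `K`, `≠ ⊤`: a place `c` (`exists_place_of_valuationSubring`).
   `q := const c`.  For `a ∈ O_c`: `a(p) = ι a ∈ 𝒪`; `a - ρ a` is `0` or a non-unit of `O_c`, so `ι (a - ρ a)` is `0` or `(ι (a - ρ a))⁻¹ ∉ 𝒪`: it lies in the maximal ideal,
   so `residue (ι a) = algebraMap K κ (ρ a) = a(q)`. -/

set_option autoImplicit false

universe u

namespace Fermat.Agent.S26

open AlgebraicCurve TensorProduct IsLocalRing

variable {K : Type u} [Field K] [IsAlgClosed K]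
variable {Φ FC : Type u} [Field Φ] [Algebra K Φ] [Field FC] [Algebra K FC]

section sections_

variable [FF1 K FC] (v : Place K Φ) (p : CPt K FC Φ)

theorem exists_redCPt_compat : ∃ q : CPt K FC v.ResidueField, ∀ a : FC, a ∈ traceFC q.place →
      ∃ (h₁ : CF.inr K Φ FC a ∈ p.place.toValuationSubring) (ω : v.toValuationSubring)
        (h₂ : CF.inr K v.ResidueField FC a ∈ q.place.toValuationSubring),
        p.eval ⟨_, h₁⟩ = (ω : Φ) ∧ q.eval ⟨_, h₂⟩ = residue _ ω := by
  cases p with
  | const c =>
    refine ⟨CPt.const c, fun a ha => ?_⟩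
    have hac : a ∈ c.toValuationSubring := by
      rw [CPt.place_const, traceFC_constPlace] at ha
      exact ha
    have h₁ : CF.inr K Φ FC a ∈ (CPt.const c : CPt K FC Φ).place.toValuationSubring := by
      have : a ∈ traceFC (constPlace Φ c) := by rw [traceFC_constPlace]; exact hac
      exact this
    refine ⟨h₁, algebraMap K v.toValuationSubring (resEquiv c (residue _ ⟨a, hac⟩)), ha, ?_, ?_⟩
    · exact CPt.eval_const_inr c ⟨a, hac⟩ h₁
    · exact CPt.eval_const_inr c ⟨a, hac⟩ ha
  | gen ι =>
    by_cases hι : ∀ a, ι a ∈ v.toValuationSubring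
    · let ι₀ : FC →ₐ[K] v.toValuationSubring :=
        { toFun := fun a => ⟨ι a, hι a⟩
          map_one' := Subtype.ext (map_one ι)
          map_mul' := fun a b => Subtype.ext (map_mul ι a b)
          map_zero' := Subtype.ext (map_zero ι)
          map_add' := fun a b => Subtype.ext (map_add ι a b)
          commutes' := fun r => Subtype.ext (ι.commutes r) }
      let ι' : FC →ₐ[K] v.ResidueField :=
        (IsScalarTower.toAlgHom K v.toValuationSubring v.ResidueField).comp ι₀
      refine ⟨CPt.gen ι', fun a _ => ⟨CPt.inr_mem_place_gen ι a, ι₀ a, CPt.inr_mem_place_gen ι' a, ?_, ?_⟩⟩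
      · exact CPt.eval_gen_inr ι a _
      · exact CPt.eval_gen_inr ι' a _
    · push Not at hι
      obtain ⟨a₀, ha₀⟩ := hι
      obtain ⟨c, hc⟩ := exists_place_of_valuationSubring (Ω := K) (v.toValuationSubring.comap ι.toRingHom)
        (fun r => by
          rw [ValuationSubring.mem_comap]
          show ι (algebraMap K FC r) ∈ _
          rw [ι.commutes]
          exact v.algebraMap_mem' r)
        (fun htop => ha₀ (by
          have : a₀ ∈ v.toValuationSubring.comap ι.toRingHom := htop ▸ ValuationSubring.mem_top a₀
          exact this))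
      have hmem : ∀ a : FC, a ∈ c.toValuationSubring ↔ ι a ∈ v.toValuationSubring := by
        intro a
        rw [hc]
        exact Iff.rfl
      refine ⟨CPt.const c, fun a ha => ?_⟩
      have hac : a ∈ c.toValuationSubring := by
        rw [CPt.place_const, traceFC_constPlace] at ha
        exact ha
      refine ⟨CPt.inr_mem_place_gen ι a, ⟨ι a, (hmem a).1 hac⟩, ha, CPt.eval_gen_inr ι a _, ?_⟩
      rw [CPt.eval_const_inr c ⟨a, hac⟩ ha]
      set r : K := resEquiv c (residue _ ⟨a, hac⟩) with hr
      have h1 : ConstAux.rho c ((⟨a, hac⟩ : c.toValuationSubring) - algebraMap K _ r) = 0 := by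
        rw [map_sub, AlgHom.commutes, ConstAux.rho_apply]
        simp [hr]
      rw [ConstAux.rho_eq_zero_iff] at h1
      have h2 : residue v.toValuationSubring
          ((⟨ι a, (hmem a).1 hac⟩ : v.toValuationSubring) - algebraMap K _ r) = 0 := by
        rcases h1 with h1 | h1
        · have h3 : a - algebraMap K FC r = 0 := congrArg Subtype.val h1
          have h4 : (⟨ι a, (hmem a).1 hac⟩ : v.toValuationSubring) - algebraMap K _ r = 0 := by
            apply Subtype.ext
            show ι a - algebraMap K Φ r = 0
            rw [← ι.commutes, ← map_sub, h3, map_zero]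
          rw [h4, map_zero]
        · have h3 : 0 < c.ord (a - algebraMap K FC r) := h1
          have hb0 : a - algebraMap K FC r ≠ 0 := Fermat.Agent.S24.FF.ne_zero_of_ord_ne_zero c h3.ne'
          have h4 : (a - algebraMap K FC r)⁻¹ ∉ c.toValuationSubring := by
            intro hm
            have := Fermat.Agent.S24.FF.ord_nonneg_of_mem c hm
            rw [c.ord_inv] at this
            omega
          rw [hmem, map_inv₀, map_sub, ι.commutes] at h4
          have h5 : (⟨ι a, (hmem a).1 hac⟩ : v.toValuationSubring) - algebraMap K _ r ≠ 0 := by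
            intro h0
            have h6 : ι a - algebraMap K Φ r = 0 := congrArg Subtype.val h0
            rw [← ι.commutes, ← map_sub, map_eq_zero] at h6
            exact hb0 h6
          rw [Fermat.Agent.S24.FF.DegOne.residue_eq_zero_iff v h5]
          show 0 < v.ord (ι a - algebraMap K Φ r)
          by_contra hle
          apply h4
          apply Fermat.Agent.S24.FF.mem_of_ord_nonneg
          rw [v.ord_inv]
          omega
      rw [map_sub, sub_eq_zero] at h2
      rw [h2]
      rfl

/-- The reduction `p̄` of a rational point `p` of `C_Φ`, and the section `B_{p̄} → 𝒪` it defines. -/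
theorem exists_redCPt : ∃ (q : CPt K FC v.ResidueField) (σ : BP v q.place →ₐ[K] v.toValuationSubring),
    IsLocalHom σ.toRingHom ∧ (∀ ω, σ (BP.fromO v q.place ω) = ω) ∧
    ∀ b : BP v q.place, ∃ h : BP.toCF v q.place b ∈ p.place.toValuationSubring,
      p.eval ⟨_, h⟩ = (σ b : Φ) := by
  obtain ⟨q, hq⟩ := exists_redCPt_compat v p
  exact ⟨q, exists_sec_of_compat v p q hq⟩

noncomputable def redCPt : CPt K FC v.ResidueField := (exists_redCPt v p).choose

noncomputable def secBP : BP v (redCPt v p).place →ₐ[K] v.toValuationSubring :=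
  (exists_redCPt v p).choose_spec.choose

theorem isLocalHom_secBP : IsLocalHom (secBP v p).toRingHom :=
  (exists_redCPt v p).choose_spec.choose_spec.1

theorem secBP_fromO (ω : v.toValuationSubring) : secBP v p (BP.fromO v (redCPt v p).place ω) = ω :=
  (exists_redCPt v p).choose_spec.choose_spec.2.1 ω

theorem toCF_mem_place (b : BP v (redCPt v p).place) :
    BP.toCF v (redCPt v p).place b ∈ p.place.toValuationSubring :=
  ((exists_redCPt v p).choose_spec.choose_spec.2.2 b).choose

theorem eval_toCF (b : BP v (redCPt v p).place) :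
    p.eval ⟨_, toCF_mem_place v p b⟩ = (secBP v p b : Φ) :=
  ((exists_redCPt v p).choose_spec.choose_spec.2.2 b).choose_spec

end sections_

end Fermat.Agent.S26
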