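import Fermat.Agent.S26.Curve.Spec.BP

/-! # S26 / M5-SecA : the section `B_q → 𝒪` defined by a rational point `p` of `C_Φ` reducing to `q`.

`p : CPt K FC Φ`, `q : CPt K FC κ`, compatible on `R = R_{q.place}` (hypothesis `h`: for `a ∈ R`, `a(p) ∈ 𝒪` and `a(p) mod ϖ = a(q)`).

PROOF.  1. For all `t : T = TP v q.place`: `∃ h₁ : toCF t ∈ O_p, ∃ ω : 𝒪, p.eval ⟨_, h₁⟩ = ω ∧ q.eval ⟨toCFbar t, TP.toCFbar_mem ..⟩ = residue ω`
  (induction on tensors; `p.eval`, `q.eval` are `Φ`- resp. `κ`-algebra homs: `AlgHom.commutes`; `TV.toCF_tmul`, `TV.toCFbar_tmul`).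
2. `s ∉ 𝔫 ⇒ q.eval (toCFbar s) ≠ 0` (`mem_nP_iff`, `CPt.eval_eq_zero_iff`) `⇒ ω_s` is a unit of `𝒪` `⇒ p.eval (toCF s) ≠ 0 ⇒ toCF s` is a unit of `O_p`.
  So for `b = t / s` (`BP.exists_mul_eq`): `toCF b ∈ O_p` and `p.eval (toCF b) = ω_t / ω_s ∈ 𝒪`.
3. `σ :=` the corestriction to `𝒪` of `b ↦ p.eval ⟨toCF b, _⟩` (a `K`-algebra hom).  Local: `σ b` unit `⇒ ω_t` unit `⇒ t ∉ 𝔫 ⇒ b` unit. -/

set_option autoImplicit false

universe u

namespace Fermat.Agent.S26

open AlgebraicCurve TensorProduct IsLocalRing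

variable {K : Type u} [Field K] [IsAlgClosed K]
variable {Φ FC : Type u} [Field Φ] [Algebra K Φ] [Field FC] [Algebra K FC] [FF1 K FC]

namespace SecAAux

variable (v : Place K Φ) (p : CPt K FC Φ) (q : CPt K FC v.ResidueField)

/-- `f ∈ 𝕃` and `g ∈ 𝕃̄` are regular at `p`, `q`, `f(p) ∈ 𝒪` and `f(p) mod ϖ = g(q)`. -/
def Good (f : CF K Φ FC) (g : CF K v.ResidueField FC) : Prop :=
  ∃ (h₁ : f ∈ p.place.toValuationSubring) (ω : v.toValuationSubring)
    (h₂ : g ∈ q.place.toValuationSubring),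
    p.eval ⟨f, h₁⟩ = (ω : Φ) ∧ q.eval ⟨g, h₂⟩ = residue _ ω

variable {v p q}

theorem Good.zero : Good v p q 0 0 :=
  ⟨zero_mem _, 0, zero_mem _, p.eval.toRingHom.map_zero, by
    rw [(residue _).map_zero]; exact q.eval.toRingHom.map_zero⟩

theorem Good.add {f f' : CF K Φ FC} {g g' : CF K v.ResidueField FC} (h : Good v p q f g)
    (h' : Good v p q f' g') : Good v p q (f + f') (g + g') := by
  obtain ⟨h₁, ω, h₂, e₁, e₂⟩ := h
  obtain ⟨h₁', ω', h₂', e₁', e₂'⟩ := h'
  refine ⟨add_mem h₁ h₁', ω + ω', add_mem h₂ h₂', ?_, ?_⟩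
  · have : (⟨f + f', add_mem h₁ h₁'⟩ : p.place.toValuationSubring) = ⟨f, h₁⟩ + ⟨f', h₁'⟩ := rfl
    rw [this, map_add, e₁, e₁']
    rfl
  · have : (⟨g + g', add_mem h₂ h₂'⟩ : q.place.toValuationSubring) = ⟨g, h₂⟩ + ⟨g', h₂'⟩ := rfl
    rw [this, (residue _).map_add, ← e₂, ← e₂']
    exact q.eval.toRingHom.map_add _ _

theorem Good.mul {f f' : CF K Φ FC} {g g' : CF K v.ResidueField FC} (h : Good v p q f g)
    (h' : Good v p q f' g') : Good v p q (f * f') (g * g') := by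
  obtain ⟨h₁, ω, h₂, e₁, e₂⟩ := h
  obtain ⟨h₁', ω', h₂', e₁', e₂'⟩ := h'
  refine ⟨mul_mem h₁ h₁', ω * ω', mul_mem h₂ h₂', ?_, ?_⟩
  · have : (⟨f * f', mul_mem h₁ h₁'⟩ : p.place.toValuationSubring) = ⟨f, h₁⟩ * ⟨f', h₁'⟩ := rfl
    rw [this, map_mul, e₁, e₁']
    rfl
  · have : (⟨g * g', mul_mem h₂ h₂'⟩ : q.place.toValuationSubring) = ⟨g, h₂⟩ * ⟨g', h₂'⟩ := rfl
    rw [this, (residue _).map_mul, ← e₂, ← e₂']
    exact q.eval.toRingHom.map_mul _ _

theorem Good.const (ω : v.toValuationSubring) :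
    Good v p q (algebraMap Φ (CF K Φ FC) ω)
      (algebraMap v.ResidueField (CF K v.ResidueField FC) (residue _ ω)) :=
  ⟨p.place.algebraMap_mem' _, ω, q.place.algebraMap_mem' _, p.eval.commutes (ω : Φ),
    q.eval.commutes (residue _ ω)⟩

/-- Step 1. -/
theorem good_TP
    (h : ∀ a : FC, a ∈ traceFC q.place → Good v p q (CF.inr K Φ FC a) (CF.inr K v.ResidueField FC a))
    (t : TP v q.place) : Good v p q (TP.toCF v q.place t) (TP.toCFbar v q.place t) := by
  induction t using TensorProduct.induction_on with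
  | zero =>
    rw [map_zero, map_zero]
    exact Good.zero
  | tmul ω a =>
    rw [TV.toCF_tmul, TV.toCFbar_tmul]
    exact (Good.const ω).mul (h a a.2)
  | add x y hx hy =>
    rw [map_add, map_add]
    exact hx.add hy

/-- an element of `O_p` with nonzero value is a unit. -/
theorem isUnit_of_eval_ne_zero (p : CPt K FC Φ) (f : p.place.toValuationSubring)
    (hf : p.eval f ≠ 0) : IsUnit f := by
  by_contra hu
  have hm : f ∈ maximalIdeal p.place.toValuationSubring := hu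
  have hsurj : Function.Surjective p.eval.toRingHom := fun x =>
    ⟨algebraMap Φ _ x, p.eval.commutes x⟩
  have hmax : (RingHom.ker p.eval.toRingHom).IsMaximal := RingHom.ker_isMaximal_of_surjective _ hsurj
  rw [← IsLocalRing.eq_maximalIdeal hmax] at hm
  exact hf hm

theorem mem_nP_iff_not_isUnit (t : TP v q.place)
    (h₂ : TP.toCFbar v q.place t ∈ q.place.toValuationSubring) (ω : v.toValuationSubring)
    (e₂ : q.eval ⟨_, h₂⟩ = residue _ ω) : t ∈ nP v q.place ↔ ¬ IsUnit ω := by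
  rw [mem_nP_iff, ← mem_nonunits_iff, ← IsLocalRing.mem_maximalIdeal,
    ← IsLocalRing.residue_eq_zero_iff, ← e₂, CPt.eval_eq_zero_iff]
  refine or_congr ?_ Iff.rfl
  rw [Subtype.ext_iff]
  rfl

/-- Step 2. -/
theorem exists_BP
    (h : ∀ a : FC, a ∈ traceFC q.place → Good v p q (CF.inr K Φ FC a) (CF.inr K v.ResidueField FC a))
    (b : BP v q.place) :
    ∃ (hb : BP.toCF v q.place b ∈ p.place.toValuationSubring) (ω : v.toValuationSubring),
      p.eval ⟨_, hb⟩ = (ω : Φ) ∧ (IsUnit ω → IsUnit b) := by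
  obtain ⟨t, s, hs, hbs⟩ := BP.exists_mul_eq v q.place b
  obtain ⟨ht₁, ωt, ht₂, et₁, et₂⟩ := good_TP h t
  obtain ⟨hs₁, ωs, hs₂, es₁, es₂⟩ := good_TP h s
  have hus : IsUnit ωs := by
    by_contra hn
    exact hs ((mem_nP_iff_not_isUnit s hs₂ ωs es₂).2 hn)
  obtain ⟨u, rfl⟩ := hus
  have hne : p.eval ⟨_, hs₁⟩ ≠ 0 := by
    rw [es₁]
    intro h0
    exact u.ne_zero (Subtype.ext h0)
  obtain ⟨w, hw⟩ := isUnit_of_eval_ne_zero p _ hne
  have hmul : BP.toCF v q.place b * TP.toCF v q.place s = TP.toCF v q.place t := by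
    rw [← BP.toCF_algebraMap, ← BP.toCF_algebraMap, ← map_mul, hbs]
  have hw1 : TP.toCF v q.place s * ((↑w⁻¹ : p.place.toValuationSubring) : CF K Φ FC) = 1 := by
    have := congrArg Subtype.val (w.mul_inv)
    rw [hw] at this
    exact this
  have hb' : BP.toCF v q.place b
      = ((⟨_, ht₁⟩ * ↑w⁻¹ : p.place.toValuationSubring) : CF K Φ FC) := by
    change _ = TP.toCF v q.place t * ((↑w⁻¹ : p.place.toValuationSubring) : CF K Φ FC)
    rw [← hmul, mul_assoc, hw1, mul_one]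
  have hb : BP.toCF v q.place b ∈ p.place.toValuationSubring := by
    rw [hb']; exact Subtype.property _
  have hev : p.eval (↑w⁻¹ : p.place.toValuationSubring) = ((↑u⁻¹ : v.toValuationSubring) : Φ) := by
    have h1 : p.eval (↑w : p.place.toValuationSubring) * p.eval (↑w⁻¹ : p.place.toValuationSubring)
        = 1 := by
      rw [← map_mul, w.mul_inv, map_one]
    rw [hw, es₁] at h1
    have h2 : ((u : v.toValuationSubring) : Φ) * ((↑u⁻¹ : v.toValuationSubring) : Φ) = 1 :=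
      congrArg Subtype.val u.mul_inv
    have h3 : ((u : v.toValuationSubring) : Φ) ≠ 0 := fun h0 => u.ne_zero (Subtype.ext h0)
    exact mul_left_cancel₀ h3 (h1.trans h2.symm)
  refine ⟨hb, ωt * ↑u⁻¹, ?_, ?_⟩
  · have : (⟨_, hb⟩ : p.place.toValuationSubring) = ⟨_, ht₁⟩ * ↑w⁻¹ := Subtype.ext hb'
    rw [this, map_mul, et₁, hev]
    rfl
  · intro hu
    have hut : IsUnit ωt := by
      have : ωt = ωt * ↑u⁻¹ * ↑u := by rw [mul_assoc, Units.inv_mul, mul_one]
      rw [this]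
      exact hu.mul u.isUnit
    have htn : t ∉ nP v q.place := fun hmem =>
      (mem_nP_iff_not_isUnit t ht₂ ωt et₂).1 hmem hut
    have hU : IsUnit (algebraMap (TP v q.place) (BP v q.place) t) :=
      IsLocalization.map_units (BP v q.place) (⟨t, htn⟩ : (nP v q.place).primeCompl)
    rw [← hbs] at hU
    exact isUnit_of_mul_isUnit_left hU

end SecAAux

open SecAAux

theorem exists_sec_of_compat (v : Place K Φ) (p : CPt K FC Φ) (q : CPt K FC v.ResidueField)
    (h : ∀ a : FC, a ∈ traceFC q.place →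
      ∃ (h₁ : CF.inr K Φ FC a ∈ p.place.toValuationSubring) (ω : v.toValuationSubring)
        (h₂ : CF.inr K v.ResidueField FC a ∈ q.place.toValuationSubring),
        p.eval ⟨_, h₁⟩ = (ω : Φ) ∧ q.eval ⟨_, h₂⟩ = residue _ ω) :
    ∃ σ : BP v q.place →ₐ[K] v.toValuationSubring,
      IsLocalHom σ.toRingHom ∧ (∀ ω, σ (BP.fromO v q.place ω) = ω) ∧
      ∀ b : BP v q.place, ∃ h : BP.toCF v q.place b ∈ p.place.toValuationSubring,
        p.eval ⟨_, h⟩ = (σ b : Φ) := by
  choose hmem ω hω hunit using fun b => exists_BP (v := v) (p := p) (q := q) h b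
  let ψ : BP v q.place →+* Φ := p.eval.toRingHom.comp
    ((BP.toCF v q.place).toRingHom.codRestrict p.place.toValuationSubring.toSubring hmem)
  have hψ : ∀ b, ψ b = ω b := hω
  let σ₀ : BP v q.place →+* v.toValuationSubring :=
    ψ.codRestrict v.toValuationSubring.toSubring (fun b => by rw [hψ]; exact (ω b).2)
  have hσ₀ : ∀ b, σ₀ b = ω b := fun b => Subtype.ext (hψ b)
  have hfromO : ∀ w, σ₀ (BP.fromO v q.place w) = w := by
    intro w
    apply Subtype.ext
    change p.eval ⟨BP.toCF v q.place (BP.fromO v q.place w), hmem _⟩ = w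
    have : (⟨BP.toCF v q.place (BP.fromO v q.place w), hmem _⟩ : p.place.toValuationSubring)
        = algebraMap Φ _ (w : Φ) := Subtype.ext (BP.toCF_fromO v q.place w)
    rw [this]
    exact p.eval.commutes _
  let σ : BP v q.place →ₐ[K] v.toValuationSubring :=
    { σ₀ with
      commutes' := fun a => by
        have : algebraMap K (BP v q.place) a = BP.fromO v q.place (algebraMap K _ a) :=
          ((BP.fromO v q.place).commutes a).symm
        change σ₀ (algebraMap K (BP v q.place) a) = _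
        rw [this, hfromO] }
  refine ⟨σ, ⟨fun b hb => ?_⟩, hfromO, fun b => ⟨hmem b, ?_⟩⟩
  · apply hunit b
    rw [← hσ₀]
    exact hb
  · rw [hω b, ← hσ₀]
    rfl

end Fermat.Agent.S26
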