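import Fermat.Agent.S26.Curve.Spec.Defs
import Fermat.Agent.S26.FF.EssFinite
import Fermat.Agent.S26.Curve.Gauss

/-! # S26 / M5-TV : the rings `T = TV v V = 𝒪 ⊗[K] V` (`V` a valuation ring of `FC` containing `K`).

* `essFiniteType_KVal`: `V = ⊤` (then `V ≃ FC`, `FF1.essFiniteType`; e.g. `Algebra.EssFiniteType.of_surjective`/transport along the `AlgEquiv`
  `Subalgebra.topEquiv`-like map) or `V` is a place (`exists_place_of_valuationSubring`, `essFiniteType_valuationSubring_of_isAlgClosed` of `FF/EssFinite.lean`).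
* `isNoetherianRing_TV`: `T` is essentially of finite type over the noetherian ring `𝒪` (base change instance), `Algebra.EssFiniteType.isNoetherianRing 𝒪 T`
  (as in `Curve/Dedekind.lean`).
* `TV.toCF_injective`: `𝒪 ⊗ V → Φ ⊗ FC` is injective (flatness over the field `K`, two steps: `Module.Flat.lTensor_preserves_injective_linearMap`,
  `rTensor…`), then `CF.ofTensor_injective`; compare the maps on pure tensors (`CF.ofTensor_tmul`).
* `TV.toCFbar_eq_zero_iff`: `toCFbar` is the composite `𝒪 ⊗ V → κ ⊗ V → κ ⊗ FC → 𝕃̄`; the last two are injective; the kernel of the first is generated by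
  `ϖ ⊗ 1` (right exactness `rTensor_exact` / `Algebra.TensorProduct.rTensor_ker`; `ker (residue 𝒪) = maximalIdeal = (ϖ)`: `ϖ` is irreducible as `ord ϖ = 1`).
* `TV.prime_pi`: `T / (ϖ ⊗ 1)` embeds in the field `𝕃̄`; `ϖ ⊗ 1 ≠ 0` by `toCF_injective`.
* `TV.exists_fraction`: `𝕃 = Frac (Φ ⊗ FC)`; an element of `Φ ⊗ FC` times a suitable `ϖ ^ n ⊗ r` (`0 ≠ r ∈ V`) lies in the image of `T` (induction on tensors;
  `Φ = Frac 𝒪`, `FC = Frac V`).
* `TV.exists_fraction_bar`: same for `𝕃̄ = Frac (κ ⊗ FC)`, using that `𝒪 → κ` is surjective. -/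

set_option autoImplicit false

universe u

namespace Fermat.Agent.S26

open AlgebraicCurve TensorProduct IsLocalRing

variable {K : Type u} [Field K] [IsAlgClosed K]
variable {Φ FC : Type u} [Field Φ] [Algebra K Φ] [Field FC] [Algebra K FC]

theorem essFiniteType_KVal [FF1 K FC] (V : KVal K FC) : Algebra.EssFiniteType K V.toValuationSubring := by
  by_cases hV : V.toValuationSubring = ⊤
  · have := FF1.essFiniteType (Ω := K) (𝕃 := FC)
    let f : FC →ₐ[K] V.toValuationSubring :=
      { toFun := fun x => ⟨x, by rw [hV]; trivial⟩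
        map_one' := rfl
        map_mul' := fun _ _ => rfl
        map_zero' := rfl
        map_add' := fun _ _ => rfl
        commutes' := fun _ => rfl }
    exact Algebra.EssFiniteType.of_surjective f (fun x => ⟨x.1, rfl⟩)
  · obtain ⟨c, hc⟩ := exists_place_of_valuationSubring V.toValuationSubring V.algebraMap_mem' hV
    have h := essFiniteType_valuationSubring_of_isAlgClosed c
    obtain ⟨W, hW⟩ := V
    subst hc
    exact h

variable (v : Place K Φ) (V : KVal K FC)

instance isNoetherianRing_TV [FF1 K FC] : IsNoetherianRing (TV v V) := by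
  have := essFiniteType_KVal V
  exact Algebra.EssFiniteType.isNoetherianRing v.toValuationSubring (TV v V)

namespace TV

theorem toCF_tmul (ω : v.toValuationSubring) (a : V.toValuationSubring) :
    toCF v V (ω ⊗ₜ a) = algebraMap Φ (CF K Φ FC) ω * CF.inr K Φ FC a := by
  simp [toCF, CF.inl]

theorem toCFbar_tmul (ω : v.toValuationSubring) (a : V.toValuationSubring) :
    toCFbar v V (ω ⊗ₜ a) =
      algebraMap v.ResidueField (CF K v.ResidueField FC) (residue _ ω) * CF.inr K v.ResidueField FC a := by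
  simp [toCFbar, CF.inl]

/-- `𝒪 ⊗ V → 𝒪 ⊗ FC` -/
noncomputable def toFC : TV v V →ₐ[K] v.toValuationSubring ⊗[K] FC :=
  Algebra.TensorProduct.map (AlgHom.id K v.toValuationSubring)
    (IsScalarTower.toAlgHom K V.toValuationSubring FC)

theorem toFC_tmul (ω : v.toValuationSubring) (a : V.toValuationSubring) :
    toFC v V (ω ⊗ₜ a) = ω ⊗ₜ (a : FC) := rfl

theorem toFC_injective : Function.Injective (toFC v V) := by
  have : Module.Free K v.toValuationSubring := Module.Free.of_divisionRing K _
  have : Module.Flat K v.toValuationSubring := Module.Flat.of_free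
  exact Module.Flat.lTensor_preserves_injective_linearMap (M := v.toValuationSubring)
    (IsScalarTower.toAlgHom K V.toValuationSubring FC).toLinearMap (fun a b hab => Subtype.ext hab)

theorem toCF_eq (t : TV v V) : toCF v V t = Gauss.j v FC (toFC v V t) := by
  induction t using TensorProduct.induction_on with
  | zero => simp
  | tmul ω a => rw [toCF_tmul, toFC_tmul, Gauss.j_tmul]
  | add x y hx hy => rw [map_add, map_add, map_add, hx, hy]

theorem toCFbar_eq (t : TV v V) : toCFbar v V t = Gauss.r v FC (toFC v V t) := by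
  induction t using TensorProduct.induction_on with
  | zero => simp
  | tmul ω a => rw [toCFbar_tmul, toFC_tmul, Gauss.r_tmul]
  | add x y hx hy => rw [map_add, map_add, map_add, hx, hy]

theorem toCF_injective : Function.Injective (toCF v V) := by
  intro x y hxy
  rw [toCF_eq, toCF_eq] at hxy
  exact toFC_injective v V (Gauss.j_injective v FC hxy)

omit [IsAlgClosed K] in
theorem _root_.Fermat.Agent.S26.irreducible_piO (v : Place K Φ) : Irreducible (piO v) := by
  obtain ⟨ϖ, hϖ⟩ := IsDiscreteValuationRing.exists_irreducible v.toValuationSubring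
  have h0 : piO v ≠ 0 := by
    intro h
    have := ord_piO v
    rw [h] at this
    simp at this
  obtain ⟨n, u, hu⟩ := IsDiscreteValuationRing.eq_unit_mul_pow_irreducible h0 hϖ
  have h1 : v.ord (piO v : Φ) = n := by
    rw [hu]
    have := v.ord_unit_smul_zpow u hϖ n
    simpa using this
  rw [ord_piO] at h1
  have hn : n = 1 := by exact_mod_cast h1.symm
  subst hn
  rw [hu, pow_one]
  exact (irreducible_units_mul u).mpr hϖ

theorem toCFbar_eq_zero_iff (t : TV v V) : toCFbar v V t = 0 ↔ TV.pi v V ∣ t := by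
  let b := Module.Basis.ofVectorSpace K V.toValuationSubring
  have hπ := irreducible_piO v
  have e : ∀ t : TV v V, toCFbar v V t = CF.ofTensor K v.ResidueField FC
      (Algebra.TensorProduct.map (AlgHom.id K v.ResidueField)
        (IsScalarTower.toAlgHom K V.toValuationSubring FC)
        (Algebra.TensorProduct.map (IsScalarTower.toAlgHom K v.toValuationSubring v.ResidueField)
          (AlgHom.id K V.toValuationSubring) t)) := by
    intro t
    induction t using TensorProduct.induction_on with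
    | zero => simp
    | tmul ω a =>
      rw [toCFbar_tmul, Algebra.TensorProduct.map_tmul, Algebra.TensorProduct.map_tmul,
        CF.ofTensor_tmul]
      rfl
    | add x y hx hy => simp only [map_add, hx, hy]
  have hinj : Function.Injective (Algebra.TensorProduct.map (AlgHom.id K v.ResidueField)
      (IsScalarTower.toAlgHom K V.toValuationSubring FC)) :=
    Module.Flat.lTensor_preserves_injective_linearMap (M := v.ResidueField)
      (IsScalarTower.toAlgHom K V.toValuationSubring FC).toLinearMap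
      (fun a b hab => Subtype.ext hab)
  rw [TV.pi, Gauss.tmul_one_dvd_iff b, e, map_eq_zero_iff _ CF.ofTensor_injective,
    map_eq_zero_iff _ hinj,
    ← map_eq_zero_iff _ (Algebra.TensorProduct.basis v.ResidueField b).repr.injective,
    Gauss.repr_map]
  have key : ∀ ω : v.toValuationSubring,
      (IsScalarTower.toAlgHom K v.toValuationSubring v.ResidueField) ω = 0 ↔ piO v ∣ ω := by
    intro ω
    have : (IsScalarTower.toAlgHom K v.toValuationSubring v.ResidueField) ω = residue _ ω := rfl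
    rw [this, residue_eq_zero_iff, hπ.maximalIdeal_eq, Ideal.mem_span_singleton]
  constructor
  · intro h i
    have := DFunLike.congr_fun h i
    simp only [Finsupp.mapRange_apply, Finsupp.coe_zero, Pi.zero_apply] at this
    exact (key _).mp this
  · intro h
    ext i
    simp only [Finsupp.mapRange_apply, Finsupp.coe_zero, Pi.zero_apply]
    exact (key _).mpr (h i)

theorem pi_ne_zero : TV.pi v V ≠ 0 := by
  intro h
  have h1 := congrArg (toCF v V) h
  rw [TV.pi, toCF_tmul, map_zero] at h1
  have h2 : CF.inr K Φ FC ((1 : V.toValuationSubring) : FC) = 1 := by simp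
  rw [h2, mul_one] at h1
  have h3 : ((piO v : v.toValuationSubring) : Φ) = 0 :=
    (map_eq_zero_iff _ (algebraMap Φ (CF K Φ FC)).injective).mp h1
  exact (irreducible_piO v).ne_zero (Subtype.ext h3)

theorem prime_pi : Prime (TV.pi v V) := by
  rw [← Ideal.span_singleton_prime (pi_ne_zero v V)]
  have : Ideal.span {TV.pi v V} = RingHom.ker (toCFbar v V).toRingHom := by
    ext t
    rw [Ideal.mem_span_singleton, RingHom.mem_ker]
    exact (toCFbar_eq_zero_iff v V t).symm
  rw [this]
  exact RingHom.ker_isPrime _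

/-- clearing the denominators in `FC = Frac V` -/
theorem exists_mul_eq_toFC (x : v.toValuationSubring ⊗[K] FC) :
    ∃ (r : V.toValuationSubring) (t : TV v V), r ≠ 0 ∧
      ((1 : v.toValuationSubring) ⊗ₜ[K] (r : FC)) * x = toFC v V t := by
  induction x using TensorProduct.induction_on with
  | zero => exact ⟨1, 0, one_ne_zero, by simp⟩
  | tmul ω c =>
    rcases V.toValuationSubring.mem_or_inv_mem c with hc | hc
    · refine ⟨1, ω ⊗ₜ ⟨c, hc⟩, one_ne_zero, ?_⟩
      rw [toFC_tmul, Algebra.TensorProduct.tmul_mul_tmul]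
      simp
    · by_cases hc0 : c = 0
      · exact ⟨1, 0, one_ne_zero, by simp [hc0]⟩
      · refine ⟨⟨c⁻¹, hc⟩, ω ⊗ₜ 1, ?_, ?_⟩
        · intro h
          exact inv_ne_zero hc0 (congrArg Subtype.val h)
        · rw [toFC_tmul, Algebra.TensorProduct.tmul_mul_tmul]
          simp [hc0]
  | add x y hx hy =>
    obtain ⟨r₁, t₁, h₁, e₁⟩ := hx
    obtain ⟨r₂, t₂, h₂, e₂⟩ := hy
    refine ⟨r₁ * r₂, ((1 : v.toValuationSubring) ⊗ₜ r₂) * t₁ +
      ((1 : v.toValuationSubring) ⊗ₜ r₁) * t₂, mul_ne_zero h₁ h₂, ?_⟩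
    rw [map_add, map_mul, map_mul, ← e₁, ← e₂, toFC_tmul, toFC_tmul]
    have e : ((1 : v.toValuationSubring) ⊗ₜ[K] ((r₁ * r₂ : V.toValuationSubring) : FC)) =
        ((1 : v.toValuationSubring) ⊗ₜ[K] (r₁ : FC)) * ((1 : v.toValuationSubring) ⊗ₜ[K] (r₂ : FC)) := by
      rw [Algebra.TensorProduct.tmul_mul_tmul]
      simp
    rw [e]
    ring

theorem exists_fraction (f : CF K Φ FC) : ∃ a s : TV v V, s ≠ 0 ∧ f * toCF v V s = toCF v V a := by
  obtain ⟨a, b, hb, rfl⟩ := Gauss.hfrac FC (irreducible_piO v) f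
  obtain ⟨r₁, t₁, h₁, e₁⟩ := exists_mul_eq_toFC v V a
  obtain ⟨r₂, t₂, h₂, e₂⟩ := exists_mul_eq_toFC v V b
  have hjb : Gauss.j v FC b ≠ 0 := fun h => hb (Gauss.j_injective v FC (by rw [h, map_zero]))
  have hr : ∀ r : V.toValuationSubring, r ≠ 0 →
      Gauss.j v FC ((1 : v.toValuationSubring) ⊗ₜ[K] (r : FC)) ≠ 0 := by
    intro r hr h
    have h3 := Gauss.j_injective v FC (h.trans (map_zero _).symm)
    have h4 : toFC v V ((1 : v.toValuationSubring) ⊗ₜ r) = toFC v V 0 := by
      rw [toFC_tmul, h3, map_zero]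
    have h5 := toFC_injective v V h4
    have h6 := congrArg (toCF v V) h5
    rw [toCF_tmul, map_zero] at h6
    simp only [OneMemClass.coe_one, map_one, one_mul] at h6
    have h7 : (r : FC) = 0 := (map_eq_zero_iff _ (CF.inr K Φ FC).toRingHom.injective).mp h6
    exact hr (Subtype.ext h7)
  have es : toCF v V (((1 : v.toValuationSubring) ⊗ₜ r₁) * t₂) =
      Gauss.j v FC ((1 : v.toValuationSubring) ⊗ₜ[K] (r₁ : FC)) *
        (Gauss.j v FC ((1 : v.toValuationSubring) ⊗ₜ[K] (r₂ : FC)) * Gauss.j v FC b) := by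
    rw [toCF_eq, map_mul, ← e₂, toFC_tmul, map_mul, map_mul]
  have ea : toCF v V (((1 : v.toValuationSubring) ⊗ₜ r₂) * t₁) =
      Gauss.j v FC ((1 : v.toValuationSubring) ⊗ₜ[K] (r₂ : FC)) *
        (Gauss.j v FC ((1 : v.toValuationSubring) ⊗ₜ[K] (r₁ : FC)) * Gauss.j v FC a) := by
    rw [toCF_eq, map_mul, ← e₁, toFC_tmul, map_mul, map_mul]
  refine ⟨((1 : v.toValuationSubring) ⊗ₜ r₂) * t₁, ((1 : v.toValuationSubring) ⊗ₜ r₁) * t₂, ?_, ?_⟩
  · intro h
    have := congrArg (toCF v V) h
    rw [es, map_zero] at this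
    exact mul_ne_zero (hr r₁ h₁) (mul_ne_zero (hr r₂ h₂) hjb) this
  · rw [es, ea]
    field_simp

theorem exists_fraction_bar (f : CF K v.ResidueField FC) :
    ∃ a s : TV v V, toCFbar v V s ≠ 0 ∧ f * toCFbar v V s = toCFbar v V a := by
  obtain ⟨a, b, hb, rfl⟩ := Gauss.hE v FC f
  obtain ⟨r₁, t₁, h₁, e₁⟩ := exists_mul_eq_toFC v V a
  obtain ⟨r₂, t₂, h₂, e₂⟩ := exists_mul_eq_toFC v V b
  have hr : ∀ r : V.toValuationSubring, r ≠ 0 →
      Gauss.r v FC ((1 : v.toValuationSubring) ⊗ₜ[K] (r : FC)) ≠ 0 := by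
    intro r hr h
    rw [Gauss.r_tmul] at h
    simp only [map_one, one_mul] at h
    have h7 : (r : FC) = 0 :=
      (map_eq_zero_iff _ (CF.inr K v.ResidueField FC).toRingHom.injective).mp h
    exact hr (Subtype.ext h7)
  have es : toCFbar v V (((1 : v.toValuationSubring) ⊗ₜ r₁) * t₂) =
      Gauss.r v FC ((1 : v.toValuationSubring) ⊗ₜ[K] (r₁ : FC)) *
        (Gauss.r v FC ((1 : v.toValuationSubring) ⊗ₜ[K] (r₂ : FC)) * Gauss.r v FC b) := by
    rw [toCFbar_eq, map_mul, ← e₂, toFC_tmul, map_mul, map_mul]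
  have ea : toCFbar v V (((1 : v.toValuationSubring) ⊗ₜ r₂) * t₁) =
      Gauss.r v FC ((1 : v.toValuationSubring) ⊗ₜ[K] (r₂ : FC)) *
        (Gauss.r v FC ((1 : v.toValuationSubring) ⊗ₜ[K] (r₁ : FC)) * Gauss.r v FC a) := by
    rw [toCFbar_eq, map_mul, ← e₁, toFC_tmul, map_mul, map_mul]
  refine ⟨((1 : v.toValuationSubring) ⊗ₜ r₂) * t₁, ((1 : v.toValuationSubring) ⊗ₜ r₁) * t₂, ?_, ?_⟩
  · rw [es]
    exact mul_ne_zero (hr r₁ h₁) (mul_ne_zero (hr r₂ h₂) hb)
  · rw [es, ea]
    field_simp

end TV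

end Fermat.Agent.S26
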