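import Fermat.Agent.S26.Curve.Points

/-! # S26 / M5 : specialisation of divisors of `C_Φ` along a DVR `v : Place K Φ`.  DEFINITIONS (sorry-free).

`𝒪 = v.toValuationSubring`, `κ = v.ResidueField`, `𝕃 = CF K Φ FC`, `𝕃̄ = CF K κ FC`, `ϖ = piO v` a uniformiser of `𝒪`.
`KVal K FC`: a valuation ring `V` of `FC` containing `K` (possibly `FC` itself).  `TV v V = 𝒪 ⊗[K] V` with its maps to `𝕃` and `𝕃̄`. -/

set_option autoImplicit false

universe u

namespace Fermat.Agent.S26

open AlgebraicCurve TensorProduct IsLocalRing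

/-- a valuation ring of `F` containing `K` (possibly `⊤`) -/
structure KVal (K F : Type u) [Field K] [Field F] [Algebra K F] where
  toValuationSubring : ValuationSubring F
  algebraMap_mem' : ∀ a : K, algebraMap K F a ∈ toValuationSubring

namespace KVal

variable {K F : Type u} [Field K] [Field F] [Algebra K F] (V : KVal K F)

instance : Algebra K V.toValuationSubring :=
  ((algebraMap K F).codRestrict V.toValuationSubring.toSubring V.algebraMap_mem').toAlgebra

@[simp] theorem coe_algebraMap (a : K) :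
    (algebraMap K V.toValuationSubring a : F) = algebraMap K F a := rfl

instance : IsScalarTower K V.toValuationSubring F :=
  IsScalarTower.of_algebraMap_eq fun a => (V.coe_algebraMap a).symm

end KVal

variable {K : Type u} [Field K] [IsAlgClosed K]
variable {Φ FC : Type u} [Field Φ] [Algebra K Φ] [Field FC] [Algebra K FC]

/-- `R_P = O_P ∩ FC` -/
noncomputable def RP {Ω : Type u} [Field Ω] [Algebra K Ω] (P : Place Ω (CF K Ω FC)) : KVal K FC where
  toValuationSubring := traceFC P
  algebraMap_mem' a := by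
    show (CF.inr K Ω FC) (algebraMap K FC a) ∈ P.toValuationSubring
    rw [AlgHom.commutes, IsScalarTower.algebraMap_apply K Ω (CF K Ω FC)]
    exact P.algebraMap_mem' _

omit [IsAlgClosed K] in
/-- a chosen uniformiser of `𝒪` -/
noncomputable def piO (v : Place K Φ) : v.toValuationSubring :=
  ⟨(Fermat.Agent.S24.FF.exists_ord_eq_one v).choose, Fermat.Agent.S24.FF.mem_of_ord_nonneg v
    (by rw [(Fermat.Agent.S24.FF.exists_ord_eq_one v).choose_spec]; exact zero_le_one)⟩

omit [IsAlgClosed K] in
theorem ord_piO (v : Place K Φ) : v.ord (piO v : Φ) = 1 :=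
  (Fermat.Agent.S24.FF.exists_ord_eq_one v).choose_spec

/-! ### the rings `𝒪 ⊗ V` -/

/-- the trivial valuation ring `FC` -/
def KVal.top (K F : Type u) [Field K] [Field F] [Algebra K F] : KVal K F := ⟨⊤, fun _ => trivial⟩

/-- `𝒪 ⊗ V` -/
abbrev TV (v : Place K Φ) (V : KVal K FC) : Type u := v.toValuationSubring ⊗[K] V.toValuationSubring

/-- `𝒪 ⊗ V → κ(C)` -/
noncomputable def TV.toCFbar (v : Place K Φ) (V : KVal K FC) : TV v V →ₐ[K] CF K v.ResidueField FC :=
  Algebra.TensorProduct.productMap
    ((CF.inl K v.ResidueField FC).comp (IsScalarTower.toAlgHom K v.toValuationSubring v.ResidueField))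
    ((CF.inr K v.ResidueField FC).comp (IsScalarTower.toAlgHom K V.toValuationSubring FC))

/-- `𝒪 ⊗ V → Φ(C)` -/
noncomputable def TV.toCF (v : Place K Φ) (V : KVal K FC) : TV v V →ₐ[K] CF K Φ FC :=
  Algebra.TensorProduct.productMap
    ((CF.inl K Φ FC).comp (IsScalarTower.toAlgHom K v.toValuationSubring Φ))
    ((CF.inr K Φ FC).comp (IsScalarTower.toAlgHom K V.toValuationSubring FC))

/-- `ϖ ⊗ 1` -/
noncomputable def TV.pi (v : Place K Φ) (V : KVal K FC) : TV v V := piO v ⊗ₜ 1

end Fermat.Agent.S26
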