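import Fermat.Agent.S26.Curve.Spec.Imult
import Fermat.Agent.S26.Curve.Spec.Section

/-! # S26 / M5-J : local intersection numbers with a section.

`P := (redCPt v p).place`, `B := BP v P`, `ι := (BP.toCF v P).toRingHom`, `σ := secBP v p : B → 𝒪`, `π := BP.piB v P` (`σ π = ϖ` by `secBP_fromO`).
`lam b := v.ord (σ b)`,  `j := genMult ι lam`.

* `j Q ≠ 0 ⇒` there is a generator of the centre of `Q` on `B` (`genMult` unfolds to a `dite`) `⇒ imult v Q P > 0` (`imult_eq_of_isGen`).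
* FORMULA.  `B ⊆ O_p` (`toCF_mem_place`), so `exists_isGen` gives `h` with `IsGen ι p.place h`;  `σ x = 0 ↔ x = 0 ∨ 0 < ord_p (ι x) ↔ h ∣ x`
  (`eval_toCF`, `CPt.eval_eq_zero_iff`).  `exists_rep` with the prime `h`: `f * ι b = ι h ^ k * ι a`, `¬ h ∣ a`, `¬ h ∣ b`; `ord_p f = 0` forces `k = 0`.
  Take out the powers of `π`: `a = π ^ m * a'`, `b = π ^ n * b'`, `¬ π ∣ a'`, `¬ π ∣ b'` (`WfDvdMonoid.max_power_factor`), still `¬ h ∣ a'`, `¬ h ∣ b'`.
  `sum_formula` with `D x := σ x ≠ 0` for `a'` and `b'`:  `lam a' = ∑ᶠ Q, ord_Q (ι a') * j Q`, same for `b'`, both with finite support.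
  For every `Q`: `ord_Q f = ord_Q (ι a') - ord_Q (ι b')` (`ι π` is a nonzero constant).  `ord_G f = m - n` (`BP.ord_gauss_toCF_eq_zero_iff`, `ord_G (ι π) = 1`).
  `p.eval f * σ b = σ a` so `ord_v (f(p)) = (m + lam a') - (n + lam b')`.  `finsum_sub_distrib`. -/

set_option autoImplicit false

universe u

namespace Fermat.Agent.S26

open AlgebraicCurve TensorProduct IsLocalRing

/-- bookkeeping: `ord` of a relation `f * (c ^ n * b) = c ^ m * a`. -/
theorem JMult.ord_rel {k F : Type*} [Field k] [Field F] [Algebra k F] (w : Place k F) {f c a b : F}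
    {m n : ℕ} (hf : f ≠ 0) (hc : c ≠ 0) (ha : a ≠ 0) (hb : b ≠ 0)
    (h : f * (c ^ n * b) = c ^ m * a) :
    w.ord f + (n * w.ord c + w.ord b) = m * w.ord c + w.ord a := by
  have := congrArg w.ord h
  rwa [Place.ord_mul _ hf (mul_ne_zero (pow_ne_zero _ hc) hb), Place.ord_mul _ (pow_ne_zero _ hc) hb,
    Place.ord_mul _ (pow_ne_zero _ hc) ha, Fermat.Agent.S24.FF.ord_pow,
    Fermat.Agent.S24.FF.ord_pow] at this

/-- the abstract form of the formula of (J), in the context of `Alg/Through.lean`: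
`v` a place of `Φ/k`, `G` a place of `𝕃/k` ("Gauss"), `Qp` a place of `𝕃/Φ` with evaluation `ev`,
`σ : B → 𝒪_v` a section computing the values at `Qp`. -/
theorem JMult.formula {k Φ 𝕃 B : Type*} [Field k] [Field Φ] [Algebra k Φ] [Field 𝕃] [Algebra Φ 𝕃]
    [Algebra k 𝕃] [CommRing B] [IsDomain B] [IsNoetherianRing B] [UniqueFactorizationMonoid B]
    (ι : B →+* 𝕃) (hι : Function.Injective ι)
    (hfrac : ∀ f : 𝕃, ∃ a s : B, s ≠ 0 ∧ f * ι s = ι a)
    (π : B) (hπ : Prime π)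
    (hΦ : ∀ ω : Φ, ∃ (n : ℕ) (b : B), algebraMap Φ 𝕃 ω * ι π ^ n = ι b)
    (hprin : ∀ 𝔮 : Ideal B, 𝔮.IsPrime → 𝔮 ≠ ⊥ → π ∉ 𝔮 → ∃ h : B, 𝔮 = Ideal.span {h})
    (v : Place k Φ) (G : Place k 𝕃) (Qp : Place Φ 𝕃) (ev : Qp.toValuationSubring →+* Φ)
    (hev : ∀ f : Qp.toValuationSubring, ev f = 0 ↔ f = 0 ∨ 0 < Qp.ord (f : 𝕃))
    (σ : B →+* v.toValuationSubring) (ϖ : v.toValuationSubring) (hϖ : v.ord (ϖ : Φ) = 1)
    (hιπ : ι π = algebraMap Φ 𝕃 (ϖ : Φ)) (hσπ : σ π = ϖ)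
    (hGπ : G.ord (ι π) = 1) (hG0 : ∀ b : B, b ≠ 0 → (G.ord (ι b) = 0 ↔ ¬ π ∣ b))
    (hmem : ∀ b : B, ι b ∈ Qp.toValuationSubring)
    (heval : ∀ b : B, ev ⟨_, hmem b⟩ = (σ b : Φ))
    (f : Qp.toValuationSubring) (hf : Qp.ord (f : 𝕃) = 0) (hf0 : f ≠ 0) :
    v.ord (ev f) = G.ord (f : 𝕃) +
      ∑ᶠ Q : Place Φ 𝕃, Q.ord (f : 𝕃) *
        genMult ι (fun b => v.ord ((σ b : v.toValuationSubring) : Φ)) Q := by
  classical
  set lam : B → ℤ := fun b => v.ord ((σ b : v.toValuationSubring) : Φ) with hlamdef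
  have hπΦ : ∃ ϖ : Φ, ι π = algebraMap Φ 𝕃 ϖ := ⟨_, hιπ⟩
  have hϖ0 : (ϖ : Φ) ≠ 0 := by
    intro h0
    rw [h0, Place.ord_zero] at hϖ
    exact zero_ne_one hϖ
  have hf0' : (f : 𝕃) ≠ 0 := fun h => hf0 (Subtype.ext h)
  obtain ⟨h, hh⟩ := exists_isGen ι hι hfrac π hπ hπΦ hprin Qp hmem
  have hhp : Prime h := IsGen.prime ι hι hfrac hh
  have hσ0 : ∀ x : B, σ x = 0 ↔ h ∣ x := by
    intro x
    rw [← hh.2 x]
    have e1 : σ x = 0 ↔ ev ⟨_, hmem x⟩ = 0 := by
      rw [heval x]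
      exact ⟨fun h0 => by rw [h0]; rfl, fun h0 => Subtype.ext h0⟩
    rw [e1, hev]
    constructor
    · rintro (h0 | h0)
      · left
        apply hι
        rw [map_zero]
        exact congrArg Subtype.val h0
      · right; exact h0
    · rintro (h0 | h0)
      · left
        apply Subtype.ext
        show ι x = 0
        rw [h0, map_zero]
      · right; exact h0
  have hord0 : ∀ x : B, ¬ h ∣ x → Qp.ord (ι x) = 0 := by
    intro x hx
    rw [← hh.2 x, not_or] at hx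
    exact le_antisymm (not_lt.1 hx.2) (Fermat.Agent.S24.FF.ord_nonneg_of_mem _ (hmem x))
  have hne0 : ∀ x : B, ¬ h ∣ x → x ≠ 0 := fun x hx h0 => hx (h0 ▸ dvd_zero h)
  have hιne : ∀ x : B, x ≠ 0 → ι x ≠ 0 := fun x hx h0 => hx (hι (by rw [h0, map_zero]))
  obtain ⟨k', a, b, ha, hb, hfab⟩ := exists_rep ι hι hfrac h hhp (f : 𝕃) hf0'
  have hordh : 0 < Qp.ord (ι h) := ((hh.2 h).2 dvd_rfl).resolve_left hhp.ne_zero
  have hk : k' = 0 := by
    have := congrArg Qp.ord hfab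
    rw [Place.ord_mul _ hf0' (hιne b (hne0 b hb)),
      Place.ord_mul _ (zpow_ne_zero _ (hιne h hhp.ne_zero)) (hιne a (hne0 a ha)),
      Place.ord_zpow, hf, hord0 a ha, hord0 b hb] at this
    simp only [add_zero] at this
    rcases mul_eq_zero.1 this.symm with h1 | h1
    · exact h1
    · omega
  rw [hk, zpow_zero, one_mul] at hfab
  obtain ⟨m, a', ha'π, rfl⟩ := WfDvdMonoid.max_power_factor (hne0 a ha) hπ.irreducible
  obtain ⟨n, b', hb'π, rfl⟩ := WfDvdMonoid.max_power_factor (hne0 b hb) hπ.irreducible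
  have ha'h : ¬ h ∣ a' := fun hd => ha (Dvd.dvd.mul_left hd _)
  have hb'h : ¬ h ∣ b' := fun hd => hb (Dvd.dvd.mul_left hd _)
  have ha'0 := hne0 a' ha'h
  have hb'0 := hne0 b' hb'h
  have hσa' : σ a' ≠ 0 := fun h0 => ha'h ((hσ0 a').1 h0)
  have hσb' : σ b' ≠ 0 := fun h0 => hb'h ((hσ0 b').1 h0)
  -- the sum formula
  have hDu : ∀ u : B, IsUnit u → σ u ≠ 0 ∧ lam u = 0 := by
    intro u hu
    have hu' : IsUnit (σ u) := hu.map σ
    refine ⟨hu'.ne_zero, ?_⟩
    obtain ⟨w, hw⟩ := hu'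
    show v.ord ((σ u : v.toValuationSubring) : Φ) = 0
    rw [← hw]
    exact Place.ord_coe_unit v w
  have hDmul : ∀ x y : B, σ (x * y) ≠ 0 ↔ σ x ≠ 0 ∧ σ y ≠ 0 := by
    intro x y
    rw [map_mul]
    exact mul_ne_zero_iff
  have hlam : ∀ x y : B, σ x ≠ 0 → σ y ≠ 0 → lam (x * y) = lam x + lam y := by
    intro x y hx hy
    show v.ord ((σ (x * y) : v.toValuationSubring) : Φ) = _
    rw [map_mul]
    exact Place.ord_mul v (fun h0 => hx (Subtype.ext h0)) (fun h0 => hy (Subtype.ext h0))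
  obtain ⟨fa, ea⟩ := sum_formula ι hι hfrac π hπ hπΦ hΦ lam (fun x => σ x ≠ 0) hDu hDmul hlam
    a' hσa' ha'0 ha'π
  obtain ⟨fb, eb⟩ := sum_formula ι hι hfrac π hπ hπΦ hΦ lam (fun x => σ x ≠ 0) hDu hDmul hlam
    b' hσb' hb'0 hb'π
  have hfab' : (f : 𝕃) * (ι π ^ n * ι b') = ι π ^ m * ι a' := by
    rw [← map_pow, ← map_pow, ← map_mul, ← map_mul]
    exact hfab
  have hιπ0 : ι π ≠ 0 := hιne π hπ.ne_zero
  -- orders at the places `Q`
  have hQ : ∀ Q : Place Φ 𝕃, Q.ord (f : 𝕃) = Q.ord (ι a') - Q.ord (ι b') := by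
    intro Q
    have h1 := JMult.ord_rel Q hf0' hιπ0 (hιne a' ha'0) (hιne b' hb'0) hfab'
    rw [hιπ, Fermat.Agent.S24.FF.ord_algebraMap] at h1
    linarith
  -- order at the Gauss place
  have hG : G.ord (f : 𝕃) = (m : ℤ) - n := by
    have h1 := JMult.ord_rel G hf0' hιπ0 (hιne a' ha'0) (hιne b' hb'0) hfab'
    rw [hGπ, (hG0 a' ha'0).2 ha'π, (hG0 b' hb'0).2 hb'π] at h1
    linarith
  -- order of the value
  have hV : v.ord (ev f) = ((m : ℤ) + lam a') - (n + lam b') := by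
    have e1 : f * ⟨_, hmem (π ^ n * b')⟩ = ⟨_, hmem (π ^ m * a')⟩ := Subtype.ext hfab
    have e2 := congrArg ev e1
    rw [map_mul, heval, heval, map_mul, map_mul, map_pow, map_pow, hσπ] at e2
    have e3 : ev f * ((ϖ : Φ) ^ n * ((σ b' : v.toValuationSubring) : Φ)) =
        (ϖ : Φ) ^ m * ((σ a' : v.toValuationSubring) : Φ) := by
      exact_mod_cast e2
    have hpf : ev f ≠ 0 := by
      intro h0
      rcases (hev f).1 h0 with h1 | h1
      · exact hf0 h1
      · omega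
    have h1 := JMult.ord_rel v hpf hϖ0 (fun h0 => hσa' (Subtype.ext h0))
      (fun h0 => hσb' (Subtype.ext h0)) e3
    rw [hϖ] at h1
    show _ = ((m : ℤ) + v.ord ((σ a' : v.toValuationSubring) : Φ)) -
      (n + v.ord ((σ b' : v.toValuationSubring) : Φ))
    linarith
  have hsum : ∑ᶠ Q : Place Φ 𝕃, Q.ord (f : 𝕃) * genMult ι lam Q = lam a' - lam b' := by
    rw [ea, eb, ← finsum_sub_distrib fa fb]
    refine finsum_congr fun Q => ?_
    rw [hQ Q, sub_mul]
  rw [hV, hG, hsum]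
  ring

variable {K : Type u} [Field K] [IsAlgClosed K]
variable {Φ FC : Type u} [Field Φ] [Algebra K Φ] [Field FC] [Algebra K FC]

section sections_

variable [FF1 K FC] (v : Place K Φ) (p : CPt K FC Φ)

/-- (J) local intersection numbers `(Q · p)_v` with the section `p`: there is a function `j` with
`j Q ≠ 0 ⇒ Q` passes through `p̄`, and `ord_v (f(p)) = ord_G f + ∑_Q ord_Q f · j Q` for all `f` with
`ord_p f = 0`. -/
theorem exists_jmult : ∃ j : Place Φ (CF K Φ FC) → ℤ,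
    (∀ Q, j Q ≠ 0 → imult v Q (redCPt v p).place ≠ 0) ∧
    ∀ (f : p.place.toValuationSubring), p.place.ord (f : CF K Φ FC) = 0 → f ≠ 0 →
      v.ord (p.eval f) = (gauss v FC).ord (f : CF K Φ FC) +
        ∑ᶠ Q : Place Φ (CF K Φ FC), Q.ord (f : CF K Φ FC) * j Q := by
  classical
  refine ⟨genMult (BP.toCF v (redCPt v p).place).toRingHom
    (fun b => v.ord (((secBP v p).toRingHom b : v.toValuationSubring) : Φ)), ?_, ?_⟩
  · intro Q hQ
    unfold genMult at hQ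
    split_ifs at hQ with h
    · obtain ⟨b, hb⟩ := h
      exact (imult_eq_of_isGen v Q _ b hb).2.ne'
    · exact absurd rfl hQ
  · intro f hf hf0
    exact JMult.formula (BP.toCF v (redCPt v p).place).toRingHom
      (BP.toCF_injective v _) (BP.exists_fraction v _) (BP.piB v _) (BP.prime_piB v _)
      (BP.exists_mul_pow v _) (BP.exists_eq_span v _) v (gauss v FC) p.place p.eval.toRingHom
      (CPt.eval_eq_zero_iff p) (secBP v p).toRingHom (piO v) (ord_piO v)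
      (BP.toCF_fromO v _ (piO v)) (secBP_fromO v p (piO v))
      (by
        have h1 : (BP.toCF v (redCPt v p).place).toRingHom (BP.piB v (redCPt v p).place) =
          algebraMap Φ (CF K Φ FC) (piO v : Φ) := BP.toCF_fromO v _ (piO v)
        rw [h1, (gaussData v FC).ord_inl, ord_piO])
      (BP.ord_gauss_toCF_eq_zero_iff v _) (toCF_mem_place v p) (eval_toCF v p) f hf hf0

/-- local intersection number of `Q` with the section `p` over `v` -/
noncomputable def jmult : Place Φ (CF K Φ FC) → ℤ := (exists_jmult v p).choose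

theorem imult_ne_zero_of_jmult_ne_zero (Q : Place Φ (CF K Φ FC)) (h : jmult v p Q ≠ 0) :
    imult v Q (redCPt v p).place ≠ 0 := (exists_jmult v p).choose_spec.1 Q h

theorem ord_eval_eq (f : p.place.toValuationSubring) (hf : p.place.ord (f : CF K Φ FC) = 0)
    (hf0 : f ≠ 0) :
    v.ord (p.eval f) = (gauss v FC).ord (f : CF K Φ FC) +
      ∑ᶠ Q : Place Φ (CF K Φ FC), Q.ord (f : CF K Φ FC) * jmult v p Q :=
  (exists_jmult v p).choose_spec.2 f hf hf0

end sections_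

end Fermat.Agent.S26
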